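import Mathlib

set_option autoImplicit false

/-!
# S48 (P2), weight-one Eisenstein series, file A: the functions `g(x) = x/(1-x)`, `h(x) = x/(1-x)²`
and the cotangent  (helper33)

* `eis1_pi_cot_eq`  : `π cot(πw) = -πi - 2πi g(e(w))`, `e(w) = exp(2πi w)`, for `w ∉ ℤ`;
* `eis1_hasDerivAt_pi_cot` : `d/dw π cot(πw) = 4π² h(e(w))`  (`= -π²/sin²(πw)`);
* `eis1_tsum_inv_sq` : `∑_{n ∈ ℤ} 1/(w+n)² = -4π² h(e(w))` for ALL `w ∉ ℤ`.
-/

noncomputable section

open Complex Real Filter Topology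

namespace Fermat.Agent.S48.Eis1

/-- `e(w) = exp(2πi w)`. -/
def eExp (w : ℂ) : ℂ := cexp (2 * π * I * w)

/-- `g(x) = x / (1 - x)`. -/
def gFun (x : ℂ) : ℂ := x / (1 - x)

/-- `h(x) = x / (1 - x)²`. -/
def hFun (x : ℂ) : ℂ := x / (1 - x) ^ 2

theorem eExp_ne_zero (w : ℂ) : eExp w ≠ 0 := Complex.exp_ne_zero _

theorem eExp_add (w w' : ℂ) : eExp (w + w') = eExp w * eExp w' := by
  rw [eExp, eExp, eExp, ← Complex.exp_add]
  ring_nf

theorem eExp_neg (w : ℂ) : eExp (-w) = (eExp w)⁻¹ := by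
  rw [eExp, eExp, ← Complex.exp_neg]
  ring_nf

theorem eExp_add_int (w : ℂ) (n : ℤ) : eExp (w + n) = eExp w := by
  rw [eExp, eExp, mul_add, Complex.exp_add]
  have : cexp (2 * π * I * n) = 1 := by
    have := Complex.exp_int_mul_two_pi_mul_I n
    rw [← this]
    ring_nf
  rw [this, mul_one]

theorem eExp_add_one (w : ℂ) : eExp (w + 1) = eExp w := by
  have := eExp_add_int w 1
  simpa using this

theorem norm_eExp (w : ℂ) : ‖eExp w‖ = Real.exp (-2 * π * w.im) := by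
  rw [eExp, Complex.norm_exp]
  congr 1
  simp

theorem eExp_eq_one_iff (w : ℂ) : eExp w = 1 ↔ ∃ n : ℤ, w = n := by
  rw [eExp, Complex.exp_eq_one_iff]
  constructor
  · rintro ⟨n, hn⟩
    refine ⟨n, ?_⟩
    have h2 : (2 * π * I : ℂ) ≠ 0 := by
      simp [Real.pi_ne_zero, Complex.I_ne_zero]
    apply mul_left_cancel₀ h2
    rw [hn]
    ring
  · rintro ⟨n, rfl⟩
    exact ⟨n, by ring⟩

theorem gFun_add_gFun_inv {x : ℂ} (hx : x ≠ 0) (hx1 : x ≠ 1) : gFun x + gFun x⁻¹ = -1 := by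
  have h1 : (1 : ℂ) - x ≠ 0 := sub_ne_zero.mpr (Ne.symm hx1)
  have h2 : (1 : ℂ) - x⁻¹ ≠ 0 := by
    intro h
    apply hx1
    have : x⁻¹ = 1 := by linear_combination -h
    rw [inv_eq_one] at this
    exact this
  rw [gFun, gFun]
  field_simp
  ring

theorem hFun_inv {x : ℂ} (hx : x ≠ 0) : hFun x⁻¹ = hFun x := by
  by_cases hx1 : x = 1
  · subst hx1
    simp
  have h1 : (1 : ℂ) - x ≠ 0 := sub_ne_zero.mpr (Ne.symm hx1)
  have h2 : (1 : ℂ) - x⁻¹ ≠ 0 := by
    intro h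
    apply hx1
    have : x⁻¹ = 1 := by linear_combination -h
    rw [inv_eq_one] at this
    exact this
  rw [hFun, hFun]
  field_simp
  ring

/-- `π cot(πw) = -πi - 2πi g(e(w))`. -/
theorem eis1_pi_cot_eq {w : ℂ} (hw : eExp w ≠ 1) :
    π * Complex.cot (π * w) = -(π * I) - 2 * π * I * gFun (eExp w) := by
  rw [Complex.cot_pi_eq_exp_ratio, gFun]
  have h1 : (1 : ℂ) - cexp (2 * π * I * w) ≠ 0 := sub_ne_zero.mpr (Ne.symm hw)
  rw [eExp]
  generalize cexp (2 * π * I * w) = X at h1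
  have hI : (I : ℂ) ≠ 0 := Complex.I_ne_zero
  have e1 : (X + 1) / (I * (1 - X)) = -I * (X + 1) / (1 - X) := by
    rw [div_eq_div_iff (mul_ne_zero hI h1) h1]
    linear_combination ((X + 1) * (1 - X)) * Complex.I_mul_I
  have e2 : X / (1 - X) = (X + 1) / (1 - X) / 2 - 1 / 2 := by
    field_simp
    ring
  rw [e1, e2]
  ring

theorem norm_gFun_le {x : ℂ} (hx : ‖x‖ ≤ 1 / 2) : ‖gFun x‖ ≤ 2 * ‖x‖ := by
  rw [gFun, norm_div]
  have h1 : (1 : ℝ) / 2 ≤ ‖(1 : ℂ) - x‖ := by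
    have := norm_sub_norm_le (1 : ℂ) x
    rw [norm_one] at this
    linarith
  rw [div_le_iff₀ (by linarith)]
  nlinarith [norm_nonneg x]

theorem norm_hFun_le {x : ℂ} (hx : ‖x‖ ≤ 1 / 2) : ‖hFun x‖ ≤ 4 * ‖x‖ := by
  rw [hFun, norm_div, norm_pow]
  have h1 : (1 : ℝ) / 2 ≤ ‖(1 : ℂ) - x‖ := by
    have := norm_sub_norm_le (1 : ℂ) x
    rw [norm_one] at this
    linarith
  have h2 : (1 : ℝ) / 4 ≤ ‖(1 : ℂ) - x‖ ^ 2 := by nlinarith
  rw [div_le_iff₀ (by linarith)]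
  nlinarith [norm_nonneg x]

/-! ### derivatives -/

theorem hasDerivAt_eExp (w : ℂ) : HasDerivAt eExp (2 * π * I * eExp w) w := by
  have h1 : HasDerivAt (fun w : ℂ => 2 * π * I * w) (2 * π * I) w := by
    simpa using (hasDerivAt_id w).const_mul (2 * π * I : ℂ)
  have h2 := (Complex.hasDerivAt_exp (2 * π * I * w)).comp w h1
  have e : (2 * π * I * eExp w : ℂ) = cexp (2 * π * I * w) * (2 * π * I) := by
    rw [eExp]
    ring
  rw [e]
  exact h2

theorem hasDerivAt_gFun {x : ℂ} (hx : x ≠ 1) : HasDerivAt gFun (1 / (1 - x) ^ 2) x := by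
  have h1 : (1 : ℂ) - x ≠ 0 := sub_ne_zero.mpr (Ne.symm hx)
  have h2 : HasDerivAt (fun x : ℂ => 1 - x) (-1) x := by
    simpa using (hasDerivAt_id x).const_sub (1 : ℂ)
  have h3 := (hasDerivAt_id x).div h2 h1
  have e : (1 : ℂ) / (1 - x) ^ 2 = (1 * (1 - x) - id x * -1) / (1 - x) ^ 2 := by
    congr 1
    simp only [id_eq]
    ring
  rw [e]
  exact h3

theorem hasDerivAt_gFun_eExp {w : ℂ} (hw : eExp w ≠ 1) :
    HasDerivAt (fun w => gFun (eExp w)) (2 * π * I * hFun (eExp w)) w := by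
  have h := (hasDerivAt_gFun hw).comp w (hasDerivAt_eExp w)
  have e : (2 * π * I * hFun (eExp w) : ℂ) = 1 / (1 - eExp w) ^ 2 * (2 * π * I * eExp w) := by
    unfold hFun
    ring
  rw [e]
  exact h

theorem isOpen_eExp_ne_one : IsOpen {w : ℂ | eExp w ≠ 1} := by
  have hc : Continuous eExp := by
    unfold eExp
    fun_prop
  exact isOpen_ne_fun hc continuous_const

/-- `d/dw π cot(πw) = 4π² h(e(w))`. -/
theorem eis1_hasDerivAt_pi_cot {w : ℂ} (hw : eExp w ≠ 1) :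
    HasDerivAt (fun w : ℂ => π * Complex.cot (π * w)) (4 * π ^ 2 * hFun (eExp w)) w := by
  have h1 : HasDerivAt (fun w : ℂ => -(π * I) - 2 * π * I * gFun (eExp w))
      (-(2 * π * I * (2 * π * I * hFun (eExp w)))) w := by
    have := ((hasDerivAt_gFun_eExp hw).const_mul (2 * π * I : ℂ)).const_sub (-(π * I) : ℂ)
    simpa using this
  have h2 : -(2 * π * I * (2 * π * I * hFun (eExp w))) = 4 * π ^ 2 * hFun (eExp w) := by
    linear_combination (-4 * π ^ 2 * hFun (eExp w)) * Complex.I_mul_I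
  rw [h2] at h1
  refine h1.congr_of_eventuallyEq ?_
  filter_upwards [isOpen_eExp_ne_one.mem_nhds hw] with y hy
  exact eis1_pi_cot_eq hy

/-! ### `∑ 1/(w+n)²` on the complement of `ℤ` -/

theorem eExp_ne_one_of_mem {w : ℂ} (hw : w ∈ Complex.integerComplement) : eExp w ≠ 1 := by
  intro h
  obtain ⟨n, hn⟩ := (eExp_eq_one_iff w).mp h
  exact hw ⟨n, hn.symm⟩

theorem mem_integerComplement_of_eExp_ne_one {w : ℂ} (hw : eExp w ≠ 1) :
    w ∈ Complex.integerComplement := by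
  rintro ⟨n, rfl⟩
  exact hw ((eExp_eq_one_iff _).mpr ⟨n, rfl⟩)

theorem exists_half_dist {w : ℂ} (hw : w ∈ Complex.integerComplement) :
    ∃ r : ℝ, 0 < r ∧ ∀ k : ℤ, 2 * r ≤ ‖w - k‖ := by
  have hcl : IsClosed (Set.range ((↑) : ℤ → ℂ)) := by
    have := Complex.isOpen_compl_range_intCast
    exact isOpen_compl_iff.mp this
  have hne : (Set.range ((↑) : ℤ → ℂ)).Nonempty := ⟨0, ⟨0, by simp⟩⟩
  have hpos := (hcl.notMem_iff_infDist_pos hne).mp hw
  refine ⟨Metric.infDist w (Set.range ((↑) : ℤ → ℂ)) / 2, by positivity, fun k => ?_⟩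
  have := Metric.infDist_le_dist_of_mem (x := w) (Set.mem_range_self (f := ((↑) : ℤ → ℂ)) k)
  rw [dist_eq_norm] at this
  linarith

theorem summable_norm_inv_sq (w : ℂ) : Summable fun d : ℤ => ‖((w + d) ^ 2)⁻¹‖ := by
  have h := (EisensteinSeries.linear_right_summable w 1 (k := 2) le_rfl).norm
  refine h.congr fun d => ?_
  simp

theorem summable_inv_norm_sq_sub (w : ℂ) :
    Summable fun n : ℕ => (‖w - ((n : ℂ) + 1)‖ ^ 2)⁻¹ := by
  have h0 := summable_norm_inv_sq w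
  have h1 := h0.comp_injective (i := fun n : ℕ => (-((n : ℤ) + 1) : ℤ)) (by
    intro a b hab
    simp only [neg_inj, add_left_inj, Nat.cast_inj] at hab
    exact hab)
  refine h1.congr fun n => ?_
  simp only [Function.comp_apply, norm_inv, norm_pow]
  congr 3
  push_cast
  ring

theorem summable_inv_norm_sq_add (w : ℂ) :
    Summable fun n : ℕ => (‖w + ((n : ℂ) + 1)‖ ^ 2)⁻¹ := by
  have h0 := summable_norm_inv_sq w
  have h1 := h0.comp_injective (i := fun n : ℕ => (((n : ℤ) + 1) : ℤ)) (by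
    intro a b hab
    simp only [add_left_inj, Nat.cast_inj] at hab
    exact hab)
  refine h1.congr fun n => ?_
  simp only [Function.comp_apply, norm_inv, norm_pow]
  congr 3
  push_cast
  ring

theorem norm_inv_sq_le_of_half {a b : ℂ} (hb : 0 < ‖b‖) (h : ‖b‖ / 2 ≤ ‖a‖) :
    ‖1 / a ^ 2‖ ≤ 4 * (‖b‖ ^ 2)⁻¹ := by
  have ha : 0 < ‖a‖ := by linarith
  rw [norm_div, norm_one, norm_pow, one_div, ← div_eq_mul_inv,
    inv_le_iff_one_le_mul₀ (by positivity), div_mul_eq_mul_div, le_div_iff₀ (by positivity)]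
  nlinarith

theorem hasDerivAt_one_div_add (c : ℂ) {y : ℂ} (h : y + c ≠ 0) :
    HasDerivAt (fun y : ℂ => 1 / (y + c)) (-(1 / (y + c) ^ 2)) y := by
  have := ((hasDerivAt_id y).add_const c).inv h
  simp only [id_eq] at this
  have e : (-(1 / (y + c) ^ 2) : ℂ) = -1 / (y + c) ^ 2 := by ring
  rw [e]
  refine this.congr_of_eventuallyEq (Filter.Eventually.of_forall fun z => ?_)
  simp

/-- termwise differentiation of the cotangent series. -/
theorem hasDerivAt_tsum_cotTerm {w : ℂ} (hw : w ∈ Complex.integerComplement) :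
    HasDerivAt (fun z : ℂ => ∑' n : ℕ, cotTerm z n)
      (∑' n : ℕ, (-(1 / (w - ((n : ℂ) + 1)) ^ 2) - 1 / (w + ((n : ℂ) + 1)) ^ 2)) w := by
  obtain ⟨r, hr, hrk⟩ := exists_half_dist hw
  have hdist : ∀ y ∈ Metric.ball w r, ∀ k : ℤ, ‖w - k‖ / 2 ≤ ‖y - k‖ := by
    intro y hy k
    rw [Metric.mem_ball, dist_eq_norm] at hy
    have h1 : ‖w - k‖ ≤ ‖y - k‖ + ‖y - w‖ := by
      have := norm_sub_le_norm_sub_add_norm_sub w y (k : ℂ)
      rw [norm_sub_rev w y] at this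
      linarith
    have := hrk k
    linarith
  have hwk : ∀ k : ℤ, 0 < ‖w - k‖ := fun k => by
    have := hrk k
    linarith
  have hd1 : ∀ y ∈ Metric.ball w r, ∀ n : ℕ, ‖w - ((n : ℂ) + 1)‖ / 2 ≤ ‖y - ((n : ℂ) + 1)‖ := by
    intro y hy n
    have := hdist y hy (n + 1)
    simpa using this
  have hd2 : ∀ y ∈ Metric.ball w r, ∀ n : ℕ, ‖w + ((n : ℂ) + 1)‖ / 2 ≤ ‖y + ((n : ℂ) + 1)‖ := by
    intro y hy n
    have := hdist y hy (-(n + 1))
    have e : ∀ x : ℂ, x - ((-((n : ℤ) + 1) : ℤ) : ℂ) = x + ((n : ℂ) + 1) := fun x => by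
      push_cast
      ring
    rwa [e, e] at this
  have hw1 : ∀ n : ℕ, 0 < ‖w - ((n : ℂ) + 1)‖ := fun n => by
    have := hwk (n + 1)
    simpa using this
  have hw2 : ∀ n : ℕ, 0 < ‖w + ((n : ℂ) + 1)‖ := fun n => by
    have := hwk (-(n + 1))
    have e : ∀ x : ℂ, x - ((-((n : ℤ) + 1) : ℤ) : ℂ) = x + ((n : ℂ) + 1) := fun x => by
      push_cast
      ring
    rwa [e] at this
  have hsum : Summable fun n : ℕ =>
      4 * (‖w - ((n : ℂ) + 1)‖ ^ 2)⁻¹ + 4 * (‖w + ((n : ℂ) + 1)‖ ^ 2)⁻¹ :=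
    ((summable_inv_norm_sq_sub w).mul_left 4).add ((summable_inv_norm_sq_add w).mul_left 4)
  refine hasDerivAt_tsum_of_isPreconnected (g := fun (n : ℕ) (z : ℂ) => cotTerm z n)
    (g' := fun (n : ℕ) (y : ℂ) => -(1 / (y - ((n : ℂ) + 1)) ^ 2) - 1 / (y + ((n : ℂ) + 1)) ^ 2)
    (t := Metric.ball w r) (y₀ := w) hsum Metric.isOpen_ball
    (convex_ball w r).isPreconnected (fun n y hy => ?_) (fun n y hy => ?_)
    (Metric.mem_ball_self hr) (summable_cotTerm hw) (Metric.mem_ball_self hr)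
  · -- derivative of the terms
    show HasDerivAt (fun z : ℂ => 1 / (z - ((n : ℂ) + 1)) + 1 / (z + ((n : ℂ) + 1)))
      (-(1 / (y - ((n : ℂ) + 1)) ^ 2) - 1 / (y + ((n : ℂ) + 1)) ^ 2) y
    have h1 : y - ((n : ℂ) + 1) ≠ 0 := by
      intro h0
      have := hd1 y hy n
      rw [h0, norm_zero] at this
      have := hw1 n
      linarith
    have h2 : y + ((n : ℂ) + 1) ≠ 0 := by
      intro h0
      have := hd2 y hy n
      rw [h0, norm_zero] at this
      have := hw2 n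
      linarith
    have d1 := hasDerivAt_one_div_add (-((n : ℂ) + 1)) (by rwa [← sub_eq_add_neg])
    have d2 := hasDerivAt_one_div_add ((n : ℂ) + 1) h2
    have := d1.add d2
    rw [← sub_eq_add_neg] at this
    simp only [← sub_eq_add_neg] at this
    exact this
  · -- the bound
    have b1 := norm_inv_sq_le_of_half (hw1 n) (hd1 y hy n)
    have b2 := norm_inv_sq_le_of_half (hw2 n) (hd2 y hy n)
    calc ‖-(1 / (y - ((n : ℂ) + 1)) ^ 2) - 1 / (y + ((n : ℂ) + 1)) ^ 2‖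
        ≤ ‖1 / (y - ((n : ℂ) + 1)) ^ 2‖ + ‖1 / (y + ((n : ℂ) + 1)) ^ 2‖ := by
          rw [sub_eq_add_neg]
          refine (norm_add_le _ _).trans ?_
          rw [norm_neg, norm_neg]
      _ ≤ _ := add_le_add b1 b2


theorem summable_one_div_add_sq (w : ℂ) : Summable fun d : ℤ => 1 / (w + d) ^ 2 := by
  have h := EisensteinSeries.linear_right_summable w 1 (k := 2) le_rfl
  refine h.congr fun d => ?_
  simp

theorem summable_one_div_add_sq_nat (w : ℂ) :
    Summable fun n : ℕ => 1 / (w + ((n : ℂ) + 1)) ^ 2 := by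
  have h1 := (summable_one_div_add_sq w).comp_injective (i := fun n : ℕ => (((n : ℤ) + 1) : ℤ)) (by
    intro a b hab
    simp only [add_left_inj, Nat.cast_inj] at hab
    exact hab)
  refine h1.congr fun n => ?_
  simp only [Function.comp_apply]
  push_cast
  ring

theorem summable_one_div_sub_sq_nat (w : ℂ) :
    Summable fun n : ℕ => 1 / (w - ((n : ℂ) + 1)) ^ 2 := by
  have h1 := (summable_one_div_add_sq w).comp_injective
    (i := fun n : ℕ => (-((n : ℤ) + 1) : ℤ)) (by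
    intro a b hab
    simp only [neg_inj, add_left_inj, Nat.cast_inj] at hab
    exact hab)
  refine h1.congr fun n => ?_
  simp only [Function.comp_apply]
  push_cast
  ring_nf

/-- **L1**: `∑_{n ∈ ℤ} 1/(w+n)² = -4π² h(e(w))` for every `w ∉ ℤ`. -/
theorem eis1_tsum_inv_sq {w : ℂ} (hw : eExp w ≠ 1) :
    ∑' n : ℤ, 1 / (w + n) ^ 2 = -(4 * π ^ 2 * hFun (eExp w)) := by
  have hwc := mem_integerComplement_of_eExp_ne_one hw
  have hw0 : w ≠ 0 := by
    rintro rfl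
    exact hwc ⟨0, by simp⟩
  -- the derivative of `π cot(π z) - 1/z`, computed in two ways
  have hA : HasDerivAt (fun z : ℂ => π * Complex.cot (π * z) - 1 / z)
      (4 * π ^ 2 * hFun (eExp w) - (-(1 / w ^ 2))) w := by
    have h1 := eis1_hasDerivAt_pi_cot hw
    have h2 : HasDerivAt (fun z : ℂ => 1 / z) (-(1 / w ^ 2)) w := by
      have := hasDerivAt_one_div_add 0 (y := w) (by simpa using hw0)
      simpa using this
    exact h1.sub h2
  have hB : HasDerivAt (fun z : ℂ => π * Complex.cot (π * z) - 1 / z)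
      (∑' n : ℕ, (-(1 / (w - ((n : ℂ) + 1)) ^ 2) - 1 / (w + ((n : ℂ) + 1)) ^ 2)) w := by
    refine (hasDerivAt_tsum_cotTerm hwc).congr_of_eventuallyEq ?_
    filter_upwards [Complex.isOpen_compl_range_intCast.mem_nhds hwc] with y hy
    exact cot_series_rep' hy
  have hu := hA.unique hB
  have hs1 := summable_one_div_add_sq_nat w
  have hs2 := summable_one_div_sub_sq_nat w
  have e1 : ∑' n : ℕ, (-(1 / (w - ((n : ℂ) + 1)) ^ 2) - 1 / (w + ((n : ℂ) + 1)) ^ 2)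
      = -(∑' n : ℕ, 1 / (w - ((n : ℂ) + 1)) ^ 2) - ∑' n : ℕ, 1 / (w + ((n : ℂ) + 1)) ^ 2 := by
    rw [Summable.tsum_sub hs2.neg hs1, tsum_neg]
  rw [e1] at hu
  have e2 := tsum_of_add_one_of_neg_add_one (f := fun n : ℤ => 1 / (w + n) ^ 2)
    (by
      refine hs1.congr fun n => ?_
      push_cast
      rfl)
    (by
      refine hs2.congr fun n => ?_
      push_cast
      ring_nf)
  rw [e2]
  have e3 : ∑' n : ℕ, 1 / (w + (((n : ℤ) + 1 : ℤ) : ℂ)) ^ 2
      = ∑' n : ℕ, 1 / (w + ((n : ℂ) + 1)) ^ 2 := by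
    refine tsum_congr fun n => ?_
    push_cast
    rfl
  have e4 : ∑' n : ℕ, 1 / (w + ((-((n : ℤ) + 1) : ℤ) : ℂ)) ^ 2
      = ∑' n : ℕ, 1 / (w - ((n : ℂ) + 1)) ^ 2 := by
    refine tsum_congr fun n => ?_
    push_cast
    ring_nf
  rw [e3, e4]
  simp only [Int.cast_zero, add_zero]
  linear_combination hu

end Fermat.Agent.S48.Eis1
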