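import Mathlib
import Fermat.Agent.S48.Eis1.Cot

set_option autoImplicit false

/-!
# S48 (P2), weight-one Eisenstein series, file B: the function `Z(z, τ)`  (helper33)

`Z(z, τ) = π cot(πz) + 2πi ∑_{n ≥ 1} (g(e(-z) qⁿ) - g(e(z) qⁿ))`, `q = e(τ)`:
the Weierstrass `ζ`-function of `ℤτ + ℤ` minus `G₂(τ) z`
(`= lim_M ∑_{|m| ≤ M} π cot(π(z + mτ))`).

* `zFun_neg`            : `Z(-z) = -Z(z)`;
* `zFun_add_one`        : `Z(z+1) = Z(z)`;
* `zFun_add_tau`        : `Z(z+τ) = Z(z) - 2πi`;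
* `zFun_add_lat`        : `Z(z + mτ + n) = Z(z) - 2πi m`;
* `hasDerivAt_zFun`     : `∂Z/∂z = 4π² ∑_{m ∈ ℤ} h(e(z + mτ))` off the lattice.
-/

noncomputable section

open Complex Real Filter Topology

namespace Fermat.Agent.S48.Eis1

/-! ### general bounds -/

theorem norm_one_sub_ge {x : ℂ} {ρ : ℝ} (hx : ‖x‖ ≤ ρ) : 1 - ρ ≤ ‖1 - x‖ := by
  have := norm_sub_norm_le (1 : ℂ) x
  rw [norm_one] at this
  linarith

theorem norm_gFun_le_of_le {x : ℂ} {ρ : ℝ} (hρ : ρ < 1) (hx : ‖x‖ ≤ ρ) :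
    ‖gFun x‖ ≤ ‖x‖ / (1 - ρ) := by
  have h1 := norm_one_sub_ge hx
  have hpos : 0 < 1 - ρ := by linarith
  rw [gFun, norm_div]
  exact div_le_div_of_nonneg_left (norm_nonneg _) hpos h1

theorem norm_hFun_le_of_le {x : ℂ} {ρ : ℝ} (hρ : ρ < 1) (hx : ‖x‖ ≤ ρ) :
    ‖hFun x‖ ≤ ‖x‖ / (1 - ρ) ^ 2 := by
  have h1 := norm_one_sub_ge hx
  have hpos : 0 < 1 - ρ := by linarith
  rw [hFun, norm_div, norm_pow]
  exact div_le_div_of_nonneg_left (norm_nonneg _) (by positivity) (pow_le_pow_left₀ hpos.le h1 2)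

theorem norm_eExp_lt_one {τ : ℂ} (hτ : 0 < τ.im) : ‖eExp τ‖ < 1 := by
  rw [norm_eExp, Real.exp_lt_one_iff]
  have := Real.pi_pos
  nlinarith

theorem eExp_ne_one_of_norm_lt {w : ℂ} (h : ‖eExp w‖ < 1) : eExp w ≠ 1 := by
  intro h1
  rw [h1, norm_one] at h
  exact lt_irrefl _ h

theorem eExp_nat_mul (τ : ℂ) (n : ℕ) : eExp (n * τ) = eExp τ ^ n := by
  rw [eExp, eExp, ← Complex.exp_nat_mul]
  ring_nf

theorem eExp_add_nat_mul (w τ : ℂ) (n : ℕ) : eExp (w + n * τ) = eExp w * eExp τ ^ n := by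
  rw [eExp_add, eExp_nat_mul]

theorem norm_eExp_add_nat_mul (w τ : ℂ) (n : ℕ) :
    ‖eExp (w + n * τ)‖ = ‖eExp w‖ * ‖eExp τ‖ ^ n := by
  rw [eExp_add_nat_mul, norm_mul, norm_pow]

theorem eventually_norm_eExp_le (w : ℂ) {τ : ℂ} (hτ : 0 < τ.im) {ε : ℝ} (hε : 0 < ε) :
    ∀ᶠ n : ℕ in atTop, ‖eExp (w + n * τ)‖ ≤ ε := by
  have h1 : Tendsto (fun n : ℕ => ‖eExp w‖ * ‖eExp τ‖ ^ n) atTop (𝓝 (‖eExp w‖ * 0)) :=
    (tendsto_pow_atTop_nhds_zero_of_lt_one (norm_nonneg _) (norm_eExp_lt_one hτ)).const_mul _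
  rw [mul_zero] at h1
  have := h1.eventually (Iic_mem_nhds hε)
  filter_upwards [this] with n hn
  rw [norm_eExp_add_nat_mul]
  exact hn

theorem summable_norm_eExp (w : ℂ) {τ : ℂ} (hτ : 0 < τ.im) :
    Summable fun n : ℕ => ‖eExp (w + n * τ)‖ := by
  simp_rw [norm_eExp_add_nat_mul]
  exact (summable_geometric_of_lt_one (norm_nonneg _) (norm_eExp_lt_one hτ)).mul_left _

theorem summable_gFun_eExp (w : ℂ) {τ : ℂ} (hτ : 0 < τ.im) :
    Summable fun n : ℕ => gFun (eExp (w + n * τ)) := by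
  refine Summable.of_norm_bounded_eventually_nat ((summable_norm_eExp w hτ).mul_left 2) ?_
  filter_upwards [eventually_norm_eExp_le w hτ (by norm_num : (0 : ℝ) < 1 / 2)] with n hn
  exact norm_gFun_le hn

theorem summable_hFun_eExp (w : ℂ) {τ : ℂ} (hτ : 0 < τ.im) :
    Summable fun n : ℕ => hFun (eExp (w + n * τ)) := by
  refine Summable.of_norm_bounded_eventually_nat ((summable_norm_eExp w hτ).mul_left 4) ?_
  filter_upwards [eventually_norm_eExp_le w hτ (by norm_num : (0 : ℝ) < 1 / 2)] with n hn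
  exact norm_hFun_le hn

/-! ### the function `Z` -/

/-- `g(e(-z) q^{n+1}) - g(e(z) q^{n+1})`. -/
def zTerm (z τ : ℂ) (n : ℕ) : ℂ :=
  gFun (eExp (-z + ((n + 1 : ℕ) : ℂ) * τ)) - gFun (eExp (z + ((n + 1 : ℕ) : ℂ) * τ))

/-- `Z(z, τ) = π cot(πz) + 2πi ∑_{n ≥ 1} (g(e(-z) qⁿ) - g(e(z) qⁿ))`. -/
def zFun (z τ : ℂ) : ℂ := π * Complex.cot (π * z) + 2 * π * I * ∑' n : ℕ, zTerm z τ n

theorem summable_gFun_succ (w : ℂ) {τ : ℂ} (hτ : 0 < τ.im) :
    Summable fun n : ℕ => gFun (eExp (w + ((n + 1 : ℕ) : ℂ) * τ)) :=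
  (summable_nat_add_iff 1).mpr (summable_gFun_eExp w hτ)

theorem summable_hFun_succ (w : ℂ) {τ : ℂ} (hτ : 0 < τ.im) :
    Summable fun n : ℕ => hFun (eExp (w + ((n + 1 : ℕ) : ℂ) * τ)) :=
  (summable_nat_add_iff 1).mpr (summable_hFun_eExp w hτ)

theorem summable_zTerm (z : ℂ) {τ : ℂ} (hτ : 0 < τ.im) : Summable (zTerm z τ) :=
  (summable_gFun_succ (-z) hτ).sub (summable_gFun_succ z hτ)

theorem zTerm_neg (z τ : ℂ) (n : ℕ) : zTerm (-z) τ n = -zTerm z τ n := by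
  rw [zTerm, zTerm, neg_neg]
  ring

theorem zFun_neg (z τ : ℂ) : zFun (-z) τ = -zFun z τ := by
  rw [zFun, zFun]
  simp_rw [zTerm_neg]
  rw [tsum_neg, mul_neg, Complex.cot_eq_cos_div_sin, Complex.cot_eq_cos_div_sin, mul_neg,
    Complex.cos_neg, Complex.sin_neg, div_neg]
  ring

theorem zTerm_add_int (z τ : ℂ) (k : ℤ) (n : ℕ) : zTerm (z + k) τ n = zTerm z τ n := by
  rw [zTerm, zTerm]
  have e1 : -(z + (k : ℂ)) + ((n + 1 : ℕ) : ℂ) * τ
      = (-z + ((n + 1 : ℕ) : ℂ) * τ) + ((-k : ℤ) : ℂ) := by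
    push_cast
    ring
  have e2 : (z + (k : ℂ)) + ((n + 1 : ℕ) : ℂ) * τ = (z + ((n + 1 : ℕ) : ℂ) * τ) + (k : ℂ) := by
    ring
  rw [e1, e2, eExp_add_int, eExp_add_int]

theorem zFun_add_int {z : ℂ} (hz : eExp z ≠ 1) (τ : ℂ) (k : ℤ) : zFun (z + k) τ = zFun z τ := by
  rw [zFun, zFun]
  simp_rw [zTerm_add_int]
  have hz' : eExp (z + k) ≠ 1 := by rwa [eExp_add_int]
  rw [eis1_pi_cot_eq hz, eis1_pi_cot_eq hz', eExp_add_int]

theorem zFun_add_one {z : ℂ} (hz : eExp z ≠ 1) (τ : ℂ) : zFun (z + 1) τ = zFun z τ := by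
  have := zFun_add_int hz τ 1
  simpa using this

/-- `Z(z + τ) = Z(z) - 2πi`. -/
theorem zFun_add_tau {z τ : ℂ} (hτ : 0 < τ.im) (hz : eExp z ≠ 1) (hz' : eExp (z + τ) ≠ 1) :
    zFun (z + τ) τ = zFun z τ - 2 * π * I := by
  -- `a n = g(e(-z + nτ))`, `b n = g(e(z + nτ))`
  have ha := summable_gFun_eExp (-z) hτ
  have hb := summable_gFun_eExp z hτ
  have hb1 : Summable fun n : ℕ => gFun (eExp (z + ((n + 1 : ℕ) : ℂ) * τ)) :=
    summable_gFun_succ z hτ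
  have hb2 : Summable fun n : ℕ => gFun (eExp (z + ((n + 1 + 1 : ℕ) : ℂ) * τ)) :=
    (summable_nat_add_iff 1).mpr hb1
  have ha1 : Summable fun n : ℕ => gFun (eExp (-z + ((n + 1 : ℕ) : ℂ) * τ)) :=
    summable_gFun_succ (-z) hτ
  have e1 : ∀ n : ℕ, zTerm (z + τ) τ n
      = gFun (eExp (-z + (n : ℂ) * τ)) - gFun (eExp (z + ((n + 1 + 1 : ℕ) : ℂ) * τ)) := by
    intro n
    rw [zTerm]
    congr 3
    · push_cast
      ring
    · push_cast
      ring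
  have s1 : ∑' n : ℕ, zTerm (z + τ) τ n
      = ∑' n : ℕ, gFun (eExp (-z + (n : ℂ) * τ))
        - ∑' n : ℕ, gFun (eExp (z + ((n + 1 + 1 : ℕ) : ℂ) * τ)) := by
    simp_rw [e1]
    exact Summable.tsum_sub ha hb2
  have s2 : ∑' n : ℕ, zTerm z τ n
      = ∑' n : ℕ, gFun (eExp (-z + ((n + 1 : ℕ) : ℂ) * τ))
        - ∑' n : ℕ, gFun (eExp (z + ((n + 1 : ℕ) : ℂ) * τ)) := by
    unfold zTerm
    exact Summable.tsum_sub ha1 hb1
  have s3 : ∑' n : ℕ, gFun (eExp (-z + (n : ℂ) * τ))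
      = gFun (eExp (-z)) + ∑' n : ℕ, gFun (eExp (-z + ((n + 1 : ℕ) : ℂ) * τ)) := by
    rw [ha.tsum_eq_zero_add]
    simp
  have s4 : ∑' n : ℕ, gFun (eExp (z + ((n + 1 : ℕ) : ℂ) * τ))
      = gFun (eExp (z + τ)) + ∑' n : ℕ, gFun (eExp (z + ((n + 1 + 1 : ℕ) : ℂ) * τ)) := by
    rw [hb1.tsum_eq_zero_add]
    simp
  have hg : gFun (eExp z) + gFun (eExp (-z)) = -1 := by
    rw [eExp_neg]
    exact gFun_add_gFun_inv (eExp_ne_zero z) hz
  rw [zFun, zFun, eis1_pi_cot_eq hz, eis1_pi_cot_eq hz', s1, s2, s3, s4]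
  linear_combination (2 * π * I) * hg


/-! ### the lattice `ℤτ + ℤ` -/

/-- `z ∈ ℤτ + ℤ`. -/
def IsLat (z τ : ℂ) : Prop := ∃ m n : ℤ, z = m * τ + n

/-- the period pair `(τ, 1)`. -/
def latPair (τ : ℂ) (hτ : 0 < τ.im) : PeriodPair where
  ω₁ := τ
  ω₂ := 1
  indep := by
    rw [LinearIndependent.pair_iff]
    intro s t h
    have him := congrArg Complex.im h
    have hre := congrArg Complex.re h
    simp at him hre
    have hs : s = 0 := by
      rcases him with h1 | h1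
      · exact h1
      · exact absurd h1 (ne_of_gt hτ)
    subst hs
    simp at hre
    exact ⟨rfl, hre⟩

theorem mem_latPair {τ : ℂ} (hτ : 0 < τ.im) (z : ℂ) :
    z ∈ (latPair τ hτ).lattice ↔ IsLat z τ := by
  rw [PeriodPair.mem_lattice]
  constructor
  · rintro ⟨m, n, h⟩
    refine ⟨m, n, ?_⟩
    rw [← h]
    simp [latPair]
  · rintro ⟨m, n, h⟩
    refine ⟨m, n, ?_⟩
    rw [h]
    simp [latPair]

theorem isOpen_not_isLat {τ : ℂ} (hτ : 0 < τ.im) : IsOpen {z : ℂ | ¬ IsLat z τ} := by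
  have h := (latPair τ hτ).isClosed_lattice.isOpen_compl
  have e : {z : ℂ | ¬ IsLat z τ} = ((latPair τ hτ).lattice : Set ℂ)ᶜ := by
    ext z
    simp only [Set.mem_ofPred_eq, Set.mem_compl_iff, SetLike.mem_coe, mem_latPair]
  rw [e]
  exact h

theorem not_isLat_add {z τ : ℂ} (hz : ¬ IsLat z τ) (m n : ℤ) : ¬ IsLat (z + m * τ + n) τ := by
  rintro ⟨a, b, h⟩
  apply hz
  refine ⟨a - m, b - n, ?_⟩
  push_cast
  linear_combination h

theorem not_isLat_neg {z τ : ℂ} (hz : ¬ IsLat z τ) : ¬ IsLat (-z) τ := by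
  rintro ⟨a, b, h⟩
  apply hz
  refine ⟨-a, -b, ?_⟩
  push_cast
  linear_combination -h

theorem eExp_ne_one_of_not_isLat {z τ : ℂ} (hz : ¬ IsLat z τ) (m : ℤ) :
    eExp (z + m * τ) ≠ 1 := by
  intro h
  obtain ⟨n, hn⟩ := (eExp_eq_one_iff _).mp h
  apply hz
  refine ⟨-m, n, ?_⟩
  push_cast
  linear_combination hn

theorem eExp_ne_one_of_not_isLat' {z τ : ℂ} (hz : ¬ IsLat z τ) : eExp z ≠ 1 := by
  have := eExp_ne_one_of_not_isLat hz 0
  simpa using this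

/-- `Z(z + mτ) = Z(z) - 2πi m`. -/
theorem zFun_add_int_mul_tau {z τ : ℂ} (hτ : 0 < τ.im) (hz : ¬ IsLat z τ) (m : ℤ) :
    zFun (z + m * τ) τ = zFun z τ - 2 * π * I * m := by
  induction m using Int.induction_on with
  | zero => simp
  | succ k ih =>
    have h1 := eExp_ne_one_of_not_isLat hz (k : ℤ)
    have h2 := eExp_ne_one_of_not_isLat hz ((k : ℤ) + 1)
    have e : z + (((k : ℤ) + 1 : ℤ) : ℂ) * τ = z + ((k : ℤ) : ℂ) * τ + τ := by
      push_cast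
      ring
    rw [e] at h2 ⊢
    rw [zFun_add_tau hτ h1 h2, ih]
    push_cast
    ring
  | pred k ih =>
    have h1 := eExp_ne_one_of_not_isLat hz (-(k : ℤ) - 1)
    have h2 := eExp_ne_one_of_not_isLat hz (-(k : ℤ))
    have e : z + ((-(k : ℤ) : ℤ) : ℂ) * τ = z + ((-(k : ℤ) - 1 : ℤ) : ℂ) * τ + τ := by
      push_cast
      ring
    rw [e] at h2
    have h3 := zFun_add_tau hτ h1 h2
    rw [← e, ih] at h3
    push_cast at h3 ⊢
    linear_combination -h3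

/-- `Z(z + mτ + n) = Z(z) - 2πi m`. -/
theorem zFun_add_lat {z τ : ℂ} (hτ : 0 < τ.im) (hz : ¬ IsLat z τ) (m n : ℤ) :
    zFun (z + m * τ + n) τ = zFun z τ - 2 * π * I * m := by
  have h1 : eExp (z + m * τ) ≠ 1 := eExp_ne_one_of_not_isLat hz m
  rw [zFun_add_int h1, zFun_add_int_mul_tau hτ hz]

/-! ### the derivative -/

/-- `W(z, τ) = ∑_{m ∈ ℤ} h(e(z + mτ))`. -/
def wFun (z τ : ℂ) : ℂ := ∑' m : ℤ, hFun (eExp (z + m * τ))

theorem wFun_add_int_mul_tau (z τ : ℂ) (k : ℤ) : wFun (z + k * τ) τ = wFun z τ := by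
  rw [wFun, wFun, ← (Equiv.addLeft k).tsum_eq (fun m : ℤ => hFun (eExp (z + m * τ)))]
  refine tsum_congr fun m => ?_
  simp only [Equiv.coe_addLeft]
  push_cast
  congr 2
  ring

theorem hFun_eExp_neg (w : ℂ) : hFun (eExp (-w)) = hFun (eExp w) := by
  rw [eExp_neg, hFun_inv (eExp_ne_zero w)]

theorem wFun_eq (z : ℂ) {τ : ℂ} (hτ : 0 < τ.im) :
    wFun z τ = hFun (eExp z)
      + ∑' n : ℕ, (hFun (eExp (-z + ((n + 1 : ℕ) : ℂ) * τ))
          + hFun (eExp (z + ((n + 1 : ℕ) : ℂ) * τ))) := by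
  have h1 := summable_hFun_succ z hτ
  have h2 := summable_hFun_succ (-z) hτ
  have e := tsum_of_add_one_of_neg_add_one (f := fun m : ℤ => hFun (eExp (z + m * τ)))
    (by
      refine h1.congr fun n => ?_
      push_cast
      rfl)
    (by
      refine h2.congr fun n => ?_
      rw [← hFun_eExp_neg]
      congr 2
      push_cast
      ring)
  rw [wFun, e, Summable.tsum_add h2 h1]
  have e3 : ∑' n : ℕ, hFun (eExp (z + (((n : ℤ) + 1 : ℤ) : ℂ) * τ))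
      = ∑' n : ℕ, hFun (eExp (z + ((n + 1 : ℕ) : ℂ) * τ)) := by
    refine tsum_congr fun n => ?_
    push_cast
    rfl
  have e4 : ∑' n : ℕ, hFun (eExp (z + ((-((n : ℤ) + 1) : ℤ) : ℂ) * τ))
      = ∑' n : ℕ, hFun (eExp (-z + ((n + 1 : ℕ) : ℂ) * τ)) := by
    refine tsum_congr fun n => ?_
    rw [← hFun_eExp_neg]
    congr 2
    push_cast
    ring
  rw [e3, e4]
  simp only [Int.cast_zero, zero_mul, add_zero]
  ring

theorem hasDerivAt_gFun_eExp_add (c : ℂ) {y : ℂ} (h : eExp (y + c) ≠ 1) :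
    HasDerivAt (fun y : ℂ => gFun (eExp (y + c))) (2 * π * I * hFun (eExp (y + c))) y := by
  have h1 : HasDerivAt (fun y : ℂ => y + c) 1 y := (hasDerivAt_id y).add_const c
  have h2 := (hasDerivAt_gFun_eExp h).comp y h1
  rw [mul_one] at h2
  exact h2

theorem hasDerivAt_gFun_eExp_neg_add (c : ℂ) {y : ℂ} (h : eExp (-y + c) ≠ 1) :
    HasDerivAt (fun y : ℂ => gFun (eExp (-y + c))) (-(2 * π * I * hFun (eExp (-y + c)))) y := by
  have h1 : HasDerivAt (fun y : ℂ => -y + c) (-1) y := ((hasDerivAt_id y).neg).add_const c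
  have h2 := (hasDerivAt_gFun_eExp h).comp y h1
  rw [mul_neg, mul_one] at h2
  exact h2

theorem norm_eExp_mul_le {y τ : ℂ} {r : ℝ} (h : r ≤ y.im + τ.im) :
    ‖eExp y‖ * ‖eExp τ‖ ≤ Real.exp (-2 * π * r) := by
  rw [norm_eExp, norm_eExp, ← Real.exp_add, Real.exp_le_exp]
  have := Real.pi_pos
  nlinarith

theorem hasDerivAt_zFun_strip {z τ : ℂ} (hτ : 0 < τ.im) (hz : |z.im| < τ.im)
    (hz1 : eExp z ≠ 1) :
    HasDerivAt (fun y : ℂ => zFun y τ) (4 * π ^ 2 * wFun z τ) z := by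
  set r : ℝ := (τ.im - |z.im|) / 2 with hr_def
  have hr : 0 < r := by
    rw [hr_def]
    linarith
  set ρ : ℝ := Real.exp (-2 * π * r) with hρ_def
  have hρ1 : ρ < 1 := by
    rw [hρ_def, Real.exp_lt_one_iff]
    have := Real.pi_pos
    nlinarith
  have hρ0 : 0 < ρ := Real.exp_pos _
  set Q : ℝ := ‖eExp τ‖ with hQ_def
  have hQ0 : 0 ≤ Q := norm_nonneg _
  have hQ1 : Q < 1 := norm_eExp_lt_one hτ
  -- the imaginary part on the ball
  have him : ∀ y ∈ Metric.ball z r, |y.im| ≤ τ.im - r := by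
    intro y hy
    rw [Metric.mem_ball, dist_eq_norm] at hy
    have h1 : |(y - z).im| ≤ ‖y - z‖ := Complex.abs_im_le_norm _
    rw [Complex.sub_im] at h1
    have h2 : |y.im| ≤ |y.im - z.im| + |z.im| := by
      have := abs_add_le (y.im - z.im) z.im
      simpa using this
    rw [hr_def] at hy ⊢
    linarith
  have hb1 : ∀ y ∈ Metric.ball z r, ∀ n : ℕ,
      ‖eExp (y + ((n + 1 : ℕ) : ℂ) * τ)‖ ≤ ρ * Q ^ n := by
    intro y hy n
    rw [norm_eExp_add_nat_mul, pow_succ', ← mul_assoc]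
    refine mul_le_mul_of_nonneg_right ?_ (pow_nonneg hQ0 n)
    refine norm_eExp_mul_le ?_
    have := him y hy
    have := neg_abs_le y.im
    linarith
  have hb2 : ∀ y ∈ Metric.ball z r, ∀ n : ℕ,
      ‖eExp (-y + ((n + 1 : ℕ) : ℂ) * τ)‖ ≤ ρ * Q ^ n := by
    intro y hy n
    rw [norm_eExp_add_nat_mul, pow_succ', ← mul_assoc]
    refine mul_le_mul_of_nonneg_right ?_ (pow_nonneg hQ0 n)
    refine norm_eExp_mul_le ?_
    have := him y hy
    have := le_abs_self y.im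
    rw [Complex.neg_im]
    linarith
  have hle : ∀ n : ℕ, ρ * Q ^ n ≤ ρ := by
    intro n
    have : Q ^ n ≤ 1 := pow_le_one₀ hQ0 hQ1.le
    nlinarith
  have hsum : Summable fun n : ℕ => 2 * (2 * π * (ρ * Q ^ n / (1 - ρ) ^ 2)) := by
    have := (summable_geometric_of_lt_one hQ0 hQ1).mul_left (2 * (2 * π * (ρ / (1 - ρ) ^ 2)))
    refine this.congr fun n => ?_
    ring
  have hmain := hasDerivAt_tsum_of_isPreconnected (g := fun (n : ℕ) (y : ℂ) => zTerm y τ n)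
    (g' := fun (n : ℕ) (y : ℂ) => -(2 * π * I * hFun (eExp (-y + ((n + 1 : ℕ) : ℂ) * τ)))
      - 2 * π * I * hFun (eExp (y + ((n + 1 : ℕ) : ℂ) * τ)))
    (t := Metric.ball z r) (y₀ := z) (y := z) hsum Metric.isOpen_ball
    (convex_ball z r).isPreconnected (fun n y hy => ?_) (fun n y hy => ?_)
    (Metric.mem_ball_self hr) (summable_zTerm z hτ) (Metric.mem_ball_self hr)
  · -- assemble
    have hcot := eis1_hasDerivAt_pi_cot hz1
    have htot := hcot.add (hmain.const_mul (2 * π * I))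
    have hval : 4 * π ^ 2 * hFun (eExp z)
        + 2 * π * I * ∑' n : ℕ, (-(2 * π * I * hFun (eExp (-z + ((n + 1 : ℕ) : ℂ) * τ)))
            - 2 * π * I * hFun (eExp (z + ((n + 1 : ℕ) : ℂ) * τ)))
        = 4 * π ^ 2 * wFun z τ := by
      rw [wFun_eq z hτ]
      have e : ∀ n : ℕ, (-(2 * π * I * hFun (eExp (-z + ((n + 1 : ℕ) : ℂ) * τ)))
            - 2 * π * I * hFun (eExp (z + ((n + 1 : ℕ) : ℂ) * τ)))
          = -(2 * π * I) * (hFun (eExp (-z + ((n + 1 : ℕ) : ℂ) * τ))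
            + hFun (eExp (z + ((n + 1 : ℕ) : ℂ) * τ))) := fun n => by ring
      simp_rw [e]
      rw [tsum_mul_left]
      linear_combination (-4 * π ^ 2 * ∑' n : ℕ, (hFun (eExp (-z + ((n + 1 : ℕ) : ℂ) * τ))
            + hFun (eExp (z + ((n + 1 : ℕ) : ℂ) * τ)))) * Complex.I_mul_I
    rw [hval] at htot
    exact htot
  · -- the derivative of the terms
    have h1 : eExp (-y + ((n + 1 : ℕ) : ℂ) * τ) ≠ 1 :=
      eExp_ne_one_of_norm_lt (lt_of_le_of_lt ((hb2 y hy n).trans (hle n)) hρ1)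
    have h2 : eExp (y + ((n + 1 : ℕ) : ℂ) * τ) ≠ 1 :=
      eExp_ne_one_of_norm_lt (lt_of_le_of_lt ((hb1 y hy n).trans (hle n)) hρ1)
    exact (hasDerivAt_gFun_eExp_neg_add _ h1).sub (hasDerivAt_gFun_eExp_add _ h2)
  · -- the bound
    have h1 := norm_hFun_le_of_le hρ1 ((hb2 y hy n).trans (hle n))
    have h2 := norm_hFun_le_of_le hρ1 ((hb1 y hy n).trans (hle n))
    have hpos : 0 < (1 - ρ) ^ 2 := by
      have : 0 < 1 - ρ := by linarith
      positivity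
    have h1' : ‖hFun (eExp (-y + ((n + 1 : ℕ) : ℂ) * τ))‖ ≤ ρ * Q ^ n / (1 - ρ) ^ 2 :=
      h1.trans (div_le_div_of_nonneg_right (hb2 y hy n) hpos.le)
    have h2' : ‖hFun (eExp (y + ((n + 1 : ℕ) : ℂ) * τ))‖ ≤ ρ * Q ^ n / (1 - ρ) ^ 2 :=
      h2.trans (div_le_div_of_nonneg_right (hb1 y hy n) hpos.le)
    have hn2 : ‖(2 * π * I : ℂ)‖ = 2 * π := by
      simp [abs_of_pos Real.pi_pos]
    calc ‖-(2 * π * I * hFun (eExp (-y + ((n + 1 : ℕ) : ℂ) * τ)))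
          - 2 * π * I * hFun (eExp (y + ((n + 1 : ℕ) : ℂ) * τ))‖
        ≤ ‖2 * π * I * hFun (eExp (-y + ((n + 1 : ℕ) : ℂ) * τ))‖
          + ‖2 * π * I * hFun (eExp (y + ((n + 1 : ℕ) : ℂ) * τ))‖ := by
          refine (norm_sub_le _ _).trans ?_
          rw [norm_neg]
      _ = 2 * π * ‖hFun (eExp (-y + ((n + 1 : ℕ) : ℂ) * τ))‖
          + 2 * π * ‖hFun (eExp (y + ((n + 1 : ℕ) : ℂ) * τ))‖ := by
          rw [norm_mul, hn2, norm_mul, hn2]
      _ ≤ 2 * π * (ρ * Q ^ n / (1 - ρ) ^ 2) + 2 * π * (ρ * Q ^ n / (1 - ρ) ^ 2) := by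
          have := Real.pi_pos
          gcongr
      _ = _ := by ring

theorem im_add_int_mul (z τ : ℂ) (k : ℤ) : (z + (k : ℂ) * τ).im = z.im + k * τ.im := by
  simp

theorem exists_int_strip (z : ℂ) {τ : ℂ} (hτ : 0 < τ.im) :
    ∃ k : ℤ, |(z + k * τ).im| < τ.im := by
  refine ⟨-round (z.im / τ.im), ?_⟩
  have h1 := abs_sub_round (z.im / τ.im)
  have e : (z + ((-round (z.im / τ.im) : ℤ) : ℂ) * τ).im
      = (z.im / τ.im - round (z.im / τ.im)) * τ.im := by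
    rw [im_add_int_mul]
    push_cast
    field_simp
    ring
  rw [e, abs_mul, abs_of_pos hτ]
  have : |z.im / τ.im - round (z.im / τ.im)| * τ.im ≤ 1 / 2 * τ.im :=
    mul_le_mul_of_nonneg_right h1 hτ.le
  linarith

/-- `∂Z/∂z = 4π² W` off the lattice. -/
theorem hasDerivAt_zFun {z τ : ℂ} (hτ : 0 < τ.im) (hz : ¬ IsLat z τ) :
    HasDerivAt (fun y : ℂ => zFun y τ) (4 * π ^ 2 * wFun z τ) z := by
  obtain ⟨k, hk⟩ := exists_int_strip z hτ
  have h1 : eExp (z + k * τ) ≠ 1 := eExp_ne_one_of_not_isLat hz k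
  have h2 := hasDerivAt_zFun_strip hτ hk h1
  rw [wFun_add_int_mul_tau] at h2
  have h3 : HasDerivAt (fun y : ℂ => y + (k : ℂ) * τ) 1 z := (hasDerivAt_id z).add_const _
  have h4 := (h2.comp z h3).add_const (2 * π * I * k)
  simp only [mul_one] at h4
  refine h4.congr_of_eventuallyEq ?_
  filter_upwards [(isOpen_not_isLat hτ).mem_nhds hz] with y hy
  simp only [Function.comp_apply]
  rw [zFun_add_int_mul_tau hτ hy]
  ring

end Fermat.Agent.S48.Eis1
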