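import Mathlib
import Fermat.Agent.S48.Eis1.ZetaStd

set_option autoImplicit false

/-!
# S48 (P2), weight-one Eisenstein series, file C: `℘ = -4π² W - G₂`  (helper33)

For `τ ∈ ℍ`, `L = ℤτ + ℤ` (`latPair`), `z ∉ L`:

  `℘[L](z) = -4π² ∑_{m ∈ ℤ} h(e(z + mτ)) - G₂(τ)`,   `h(x) = x/(1-x)²`, `e(w) = exp(2πi w)`

(`-4π² h(e(w)) = π²/sin²(πw) = ∑_n 1/(w+n)²`; `G₂` = Mathlib's `EisensteinSeries.G2`).
Consequently `∂Z/∂z = -(℘ + G₂)`.
-/

noncomputable section

open Complex Real Filter Topology UpperHalfPlane EisensteinSeries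

namespace Fermat.Agent.S48.Eis1

theorem summable_hFun_int (w : ℂ) {τ : ℂ} (hτ : 0 < τ.im) :
    Summable fun m : ℤ => hFun (eExp (w + m * τ)) := by
  refine Summable.of_add_one_of_neg_add_one ?_ ?_
  · refine (summable_hFun_succ w hτ).congr fun n => ?_
    push_cast
    rfl
  · refine (summable_hFun_succ (-w) hτ).congr fun n => ?_
    rw [← hFun_eExp_neg]
    congr 2
    push_cast
    ring

theorem wFun_neg_index (z τ : ℂ) : ∑' m : ℤ, hFun (eExp (z - m * τ)) = wFun z τ := by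
  rw [wFun, ← tsum_comp_neg (fun m : ℤ => hFun (eExp (z + m * τ)))]
  refine tsum_congr fun m => ?_
  push_cast
  congr 2
  ring

theorem summable_one_div_sub_sq (w : ℂ) : Summable fun n : ℤ => 1 / (w - n) ^ 2 := by
  have h := (summable_one_div_add_sq w).comp_injective (i := fun n : ℤ => -n) neg_injective
  refine h.congr fun n => ?_
  simp only [Function.comp_apply]
  push_cast
  ring_nf

theorem tsum_one_div_sub_sq {w : ℂ} (hw : eExp w ≠ 1) :
    ∑' n : ℤ, 1 / (w - n) ^ 2 = -(4 * π ^ 2 * hFun (eExp w)) := by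
  rw [← eis1_tsum_inv_sq hw, ← tsum_comp_neg (fun n : ℤ => 1 / (w + n) ^ 2)]
  refine tsum_congr fun n => ?_
  push_cast
  ring_nf

theorem e2Summand_eq_tsum (m : ℤ) (τ : ℍ) :
    e2Summand m τ = ∑' n : ℤ, 1 / ((m : ℂ) * τ + n) ^ 2 := by
  simp [e2Summand, eisSummand]

theorem eExp_int_mul_ne_one {m : ℤ} (hm : m ≠ 0) {τ : ℂ} (hτ : 0 < τ.im) :
    eExp ((m : ℂ) * τ) ≠ 1 := by
  intro h
  obtain ⟨n, hn⟩ := (eExp_eq_one_iff _).mp h
  have him := congrArg Complex.im hn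
  simp at him
  rcases him with h1 | h1
  · exact hm h1
  · exact absurd h1 (ne_of_gt hτ)

theorem e2Summand_eq_hFun {m : ℤ} (hm : m ≠ 0) (τ : ℍ) :
    e2Summand m τ = -(4 * π ^ 2 * hFun (eExp ((m : ℂ) * τ))) := by
  rw [e2Summand_eq_tsum, eis1_tsum_inv_sq (eExp_int_mul_ne_one hm τ.im_pos)]

theorem summable_e2Summand_int (τ : ℍ) : Summable fun m : ℤ => e2Summand m τ := by
  have h1 : Summable fun m : ℤ => -(4 * π ^ 2 * hFun (eExp ((0 : ℂ) + (m : ℂ) * τ))) :=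
    ((summable_hFun_int 0 τ.im_pos).mul_left (4 * π ^ 2 : ℂ)).neg
  have h2 : Summable fun m : ℤ => if m = 0
      then e2Summand 0 τ + 4 * π ^ 2 * hFun (eExp ((0 : ℂ) + ((0 : ℤ) : ℂ) * τ)) else 0 :=
    (hasSum_ite_eq (0 : ℤ) _).summable
  refine (h1.add h2).congr fun m => ?_
  by_cases hm : m = 0
  · subst hm
    simp
  · rw [if_neg hm, e2Summand_eq_hFun hm, zero_add, add_zero]

theorem G2_eq_tsum_int (τ : ℍ) : G2 τ = ∑' m : ℤ, e2Summand m τ := by
  rw [G2]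
  exact tsum_eq_of_summable_unconditional (summable_e2Summand_int τ)

/-- **L5**: `℘(z) = -4π² W(z, τ) - G₂(τ)` off the lattice. -/
theorem weierstrassP_latPair (τ : ℍ) {z : ℂ} (hz : ¬ IsLat z τ) :
    (latPair τ τ.im_pos).weierstrassP z = -(4 * π ^ 2 * wFun z τ) - G2 τ := by
  have h0 := (latPair τ τ.im_pos).hasSum_weierstrassP z
  have h1 : HasSum (fun p : ℤ × ℤ =>
      1 / (z - ((p.1 : ℂ) * τ + p.2)) ^ 2 - 1 / ((p.1 : ℂ) * τ + p.2) ^ 2)
      ((latPair τ τ.im_pos).weierstrassP z) := by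
    have h := ((latPair τ τ.im_pos).latticeEquivProd.symm.toEquiv.hasSum_iff
      (f := fun l : (latPair τ τ.im_pos).lattice =>
        1 / (z - (l : ℂ)) ^ 2 - 1 / (l : ℂ) ^ 2)).mpr h0
    have e : ((fun l : (latPair τ τ.im_pos).lattice => 1 / (z - (l : ℂ)) ^ 2 - 1 / (l : ℂ) ^ 2) ∘
        ⇑(latPair τ τ.im_pos).latticeEquivProd.symm.toEquiv)
        = fun p : ℤ × ℤ =>
          1 / (z - ((p.1 : ℂ) * τ + p.2)) ^ 2 - 1 / ((p.1 : ℂ) * τ + p.2) ^ 2 := by
      funext p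
      simp only [Function.comp_apply, LinearEquiv.coe_toEquiv,
        PeriodPair.latticeEquiv_symm_apply]
      simp [latPair]
    rw [e] at h
    exact h
  have hrow : ∀ m : ℤ, Summable fun n : ℤ =>
      1 / (z - ((m : ℂ) * τ + n)) ^ 2 - 1 / ((m : ℂ) * τ + n) ^ 2 :=
    fun m => h1.summable.prod_factor m
  rw [← h1.tsum_eq, h1.summable.tsum_prod' hrow]
  have hr : ∀ m : ℤ, ∑' n : ℤ, (1 / (z - ((m : ℂ) * τ + n)) ^ 2 - 1 / ((m : ℂ) * τ + n) ^ 2)
      = -(4 * π ^ 2 * hFun (eExp (z - m * τ))) - e2Summand m τ := by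
    intro m
    have s1 : Summable fun n : ℤ => 1 / (z - ((m : ℂ) * τ + n)) ^ 2 := by
      refine (summable_one_div_sub_sq (z - m * τ)).congr fun n => ?_
      ring_nf
    have s2 : Summable fun n : ℤ => 1 / ((m : ℂ) * τ + n) ^ 2 :=
      summable_one_div_add_sq _
    have hne : eExp (z - m * τ) ≠ 1 := by
      have := eExp_ne_one_of_not_isLat hz (-m)
      rw [Int.cast_neg, neg_mul, ← sub_eq_add_neg] at this
      exact this
    rw [Summable.tsum_sub s1 s2, e2Summand_eq_tsum, ← tsum_one_div_sub_sq hne]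
    congr 1
    refine tsum_congr fun n => ?_
    ring_nf
  simp_rw [hr]
  have s3 : Summable fun m : ℤ => -(4 * π ^ 2 * hFun (eExp (z - m * τ))) := by
    have := ((summable_hFun_int z τ.im_pos).comp_injective (i := fun n : ℤ => -n)
      neg_injective).mul_left (4 * π ^ 2 : ℂ)
    refine this.neg.congr fun m => ?_
    simp only [Function.comp_apply]
    push_cast
    ring_nf
  rw [Summable.tsum_sub s3 (summable_e2Summand_int τ), ← G2_eq_tsum_int, tsum_neg,
    tsum_mul_left, wFun_neg_index]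

/-- `∂Z/∂z = -(℘ + G₂)`. -/
theorem hasDerivAt_zFun_wp (τ : ℍ) {z : ℂ} (hz : ¬ IsLat z τ) :
    HasDerivAt (fun y : ℂ => zFun y τ)
      (-((latPair τ τ.im_pos).weierstrassP z + G2 τ)) z := by
  have h := hasDerivAt_zFun τ.im_pos hz
  rw [weierstrassP_latPair τ hz]
  convert h using 1
  ring

end Fermat.Agent.S48.Eis1
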