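import Mathlib
import Fermat.Agent.S48.Eis1.WPStd

set_option autoImplicit false

/-!
# S48 (P2), weight-one Eisenstein series, file D: homogeneity  (helper33)

For `γ = (a b; c d) ∈ SL(2, ℤ)`, `τ ∈ ℍ`, `j = cτ + d`:

* `isLat_smul_iff`        : `z ∈ ℤ(γτ) + ℤ ↔ j z ∈ ℤτ + ℤ`;
* `weierstrassP_smul`     : `℘(z; γτ) = j² ℘(j z; τ)`;
* `G2_smul`               : `G₂(γτ) = j² G₂(τ) - 2πi c j`   (Mathlib `G2_slash_action`);
* `zFun_smul`             : `Z(z / j, γτ) = j Z(z, τ) + 2πi c z`  off the lattice.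
-/

noncomputable section

open Complex Real Filter Topology EisensteinSeries ModularForm
open UpperHalfPlane hiding I
open scoped MatrixGroups

namespace Fermat.Agent.S48.Eis1

/-- `j(γ, τ) = cτ + d`. -/
def jFac (γ : SL(2, ℤ)) (τ : ℍ) : ℂ := (γ 1 0 : ℂ) * τ + γ 1 1

theorem denom_eq_jFac (γ : SL(2, ℤ)) (τ : ℍ) : denom γ τ = jFac γ τ := by
  simp [denom, jFac]

theorem jFac_ne_zero (γ : SL(2, ℤ)) (τ : ℍ) : jFac γ τ ≠ 0 := by
  rw [← denom_eq_jFac]
  exact denom_ne_zero _ _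

theorem coe_smul_eq (γ : SL(2, ℤ)) (τ : ℍ) :
    ((γ • τ : ℍ) : ℂ) = ((γ 0 0 : ℂ) * τ + γ 0 1) / jFac γ τ := by
  rw [UpperHalfPlane.coe_specialLinearGroup_apply, jFac]
  simp

theorem sl2_det_complex (γ : SL(2, ℤ)) :
    (γ 0 0 : ℂ) * (γ 1 1 : ℂ) - (γ 0 1 : ℂ) * (γ 1 0 : ℂ) = 1 := by
  have h := γ.det_coe
  rw [Matrix.det_fin_two] at h
  exact_mod_cast h

theorem jFac_mul_smul (γ : SL(2, ℤ)) (τ : ℍ) :
    jFac γ τ * ((γ • τ : ℍ) : ℂ) = (γ 0 0 : ℂ) * τ + γ 0 1 := by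
  rw [coe_smul_eq, mul_div_cancel₀ _ (jFac_ne_zero γ τ)]

theorem isLat_smul_iff (γ : SL(2, ℤ)) (τ : ℍ) (z : ℂ) :
    IsLat z (γ • τ : ℍ) ↔ IsLat (jFac γ τ * z) τ := by
  have hdet := sl2_det_complex γ
  have hj := jFac_ne_zero γ τ
  have hjs := jFac_mul_smul γ τ
  constructor
  · rintro ⟨m, n, h⟩
    refine ⟨m * γ 0 0 + n * γ 1 0, m * γ 0 1 + n * γ 1 1, ?_⟩
    rw [h]
    push_cast
    have : jFac γ τ * ((m : ℂ) * ((γ • τ : ℍ) : ℂ) + n)
        = m * (jFac γ τ * ((γ • τ : ℍ) : ℂ)) + n * jFac γ τ := by ring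
    rw [this, hjs, jFac]
    ring
  · rintro ⟨m, n, h⟩
    refine ⟨m * γ 1 1 - n * γ 1 0, -(m * γ 0 1) + n * γ 0 0, ?_⟩
    apply mul_left_cancel₀ hj
    rw [h]
    push_cast
    have : jFac γ τ * (((m : ℂ) * (γ 1 1 : ℂ) - n * (γ 1 0 : ℂ)) * ((γ • τ : ℍ) : ℂ)
          + (-(m * (γ 0 1 : ℂ)) + n * (γ 0 0 : ℂ)))
        = ((m : ℂ) * (γ 1 1 : ℂ) - n * (γ 1 0 : ℂ)) * (jFac γ τ * ((γ • τ : ℍ) : ℂ))
          + (-(m * (γ 0 1 : ℂ)) + n * (γ 0 0 : ℂ)) * jFac γ τ := by ring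
    rw [this, hjs, jFac]
    linear_combination (-((m : ℂ) * τ + n)) * hdet

/-- homothety of `℘`. -/
theorem weierstrassP_homothety (L L' : PeriodPair) (c : ℂ) (hc : c ≠ 0)
    (h : ∀ z : ℂ, z ∈ L'.lattice ↔ c * z ∈ L.lattice) (z : ℂ) :
    L'.weierstrassP z = c ^ 2 * L.weierstrassP (c * z) := by
  have hmem' : ∀ l : L.lattice, c⁻¹ * (l : ℂ) ∈ L'.lattice := by
    intro l
    rw [h, ← mul_assoc, mul_inv_cancel₀ hc, one_mul]
    exact l.2
  let e : L'.lattice ≃ L.lattice :=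
    { toFun := fun l => ⟨c * l, (h _).mp l.2⟩
      invFun := fun l => ⟨c⁻¹ * l, hmem' l⟩
      left_inv := fun l => Subtype.ext (by
        show c⁻¹ * (c * (l : ℂ)) = l
        rw [← mul_assoc, inv_mul_cancel₀ hc, one_mul])
      right_inv := fun l => Subtype.ext (by
        show c * (c⁻¹ * (l : ℂ)) = l
        rw [← mul_assoc, mul_inv_cancel₀ hc, one_mul]) }
  rw [PeriodPair.weierstrassP, PeriodPair.weierstrassP, ← e.tsum_eq, ← tsum_mul_left]
  refine tsum_congr fun l => ?_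
  show 1 / (z - (l : ℂ)) ^ 2 - 1 / (l : ℂ) ^ 2
    = c ^ 2 * (1 / (c * z - c * (l : ℂ)) ^ 2 - 1 / (c * (l : ℂ)) ^ 2)
  by_cases hl : (l : ℂ) = 0
  · rw [hl]
    simp only [sub_zero, mul_zero, ne_eq, OfNat.ofNat_ne_zero, not_false_eq_true, zero_pow,
      div_zero]
    by_cases hz : z = 0
    · rw [hz]
      simp
    · field_simp
  · by_cases hz : z - (l : ℂ) = 0
    · have : c * z - c * (l : ℂ) = 0 := by rw [← mul_sub, hz, mul_zero]
      rw [hz, this]
      simp only [ne_eq, OfNat.ofNat_ne_zero, not_false_eq_true, zero_pow, div_zero, zero_sub]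
      field_simp
    · have : c * z - c * (l : ℂ) = c * (z - l) := by ring
      rw [this]
      field_simp

theorem weierstrassP_smul (γ : SL(2, ℤ)) (τ : ℍ) (z : ℂ) :
    (latPair (γ • τ : ℍ) (γ • τ : ℍ).im_pos).weierstrassP z
      = jFac γ τ ^ 2 * (latPair τ τ.im_pos).weierstrassP (jFac γ τ * z) := by
  refine weierstrassP_homothety _ _ (jFac γ τ) (jFac_ne_zero γ τ) (fun w => ?_) z
  exact (mem_latPair _ w).trans ((isLat_smul_iff γ τ w).trans (mem_latPair _ _).symm)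

theorem G2_smul (γ : SL(2, ℤ)) (τ : ℍ) :
    G2 (γ • τ) = jFac γ τ ^ 2 * G2 τ - 2 * π * I * (γ 1 0 : ℂ) * jFac γ τ := by
  have h := congrFun (G2_slash_action γ) τ
  rw [SL_slash_apply] at h
  simp only [Pi.sub_apply, D2] at h
  have hd : denom (Matrix.SpecialLinearGroup.toGL
      ((Matrix.SpecialLinearGroup.map (Int.castRingHom ℝ)) γ)) (τ : ℂ) = jFac γ τ :=
    denom_eq_jFac γ τ
  rw [hd] at h
  have hj := jFac_ne_zero γ τ
  have h2 : G2 (γ • τ) = (G2 τ - 2 * π * I * (γ 1 0 : ℂ) / jFac γ τ) * jFac γ τ ^ 2 := by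
    rw [← h, zpow_neg, mul_assoc]
    have : ((jFac γ τ) ^ (2 : ℤ))⁻¹ * jFac γ τ ^ 2 = 1 := by
      rw [zpow_ofNat]
      exact inv_mul_cancel₀ (pow_ne_zero 2 hj)
    rw [this, mul_one]
  rw [h2]
  field_simp


theorem isPreconnected_not_isLat {τ : ℂ} (hτ : 0 < τ.im) :
    IsPreconnected {z : ℂ | ¬ IsLat z τ} := by
  have e : {z : ℂ | ¬ IsLat z τ} = ((latPair τ hτ).lattice : Set ℂ)ᶜ := by
    ext z
    simp only [Set.mem_ofPred_eq, Set.mem_compl_iff, SetLike.mem_coe, mem_latPair]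
  rw [e]
  have hc : ((latPair τ hτ).lattice : Set ℂ).Countable := by
    have : Countable (latPair τ hτ).lattice :=
      Countable.of_equiv _ (latPair τ hτ).latticeEquivProd.symm.toEquiv
    exact Set.countable_coe_iff.mp this
  have h : 1 < Module.rank ℝ ℂ := by
    rw [Complex.rank_real_complex]
    norm_num
  exact (hc.isPathConnected_compl_of_one_lt_rank h).isConnected.isPreconnected

theorem not_isLat_div_smul (γ : SL(2, ℤ)) (τ : ℍ) {z : ℂ} (hz : ¬ IsLat z τ) :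
    ¬ IsLat (z / jFac γ τ) (γ • τ : ℍ) := by
  rw [isLat_smul_iff, mul_div_cancel₀ _ (jFac_ne_zero γ τ)]
  exact hz

/-- **L7**: `Z(z / (cτ+d), γτ) = (cτ+d) Z(z, τ) + 2πi c z`. -/
theorem zFun_smul (γ : SL(2, ℤ)) (τ : ℍ) {z : ℂ} (hz : ¬ IsLat z τ) :
    zFun (z / jFac γ τ) (γ • τ : ℍ)
      = jFac γ τ * zFun z τ + 2 * π * Complex.I * (γ 1 0 : ℂ) * z := by
  have hj := jFac_ne_zero γ τ
  set j := jFac γ τ with hj_def
  set D : ℂ → ℂ := fun w => zFun (w / j) (γ • τ : ℍ) - j * zFun w τ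
    - 2 * π * Complex.I * (γ 1 0 : ℂ) * w with hD
  have hderiv : ∀ w : ℂ, ¬ IsLat w τ → HasDerivAt D 0 w := by
    intro w hw
    have hw' := not_isLat_div_smul γ τ hw
    have h1 := hasDerivAt_zFun_wp (γ • τ) hw'
    have h1' : HasDerivAt (fun y : ℂ => y / j) (1 / j) w := by
      simpa using (hasDerivAt_id w).div_const j
    have h1c := h1.comp w h1'
    have h2 := (hasDerivAt_zFun_wp τ hw).const_mul j
    have h3 : HasDerivAt (fun y : ℂ => 2 * π * Complex.I * (γ 1 0 : ℂ) * y)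
        (2 * π * Complex.I * (γ 1 0 : ℂ)) w := by
      simpa using (hasDerivAt_id w).const_mul (2 * π * Complex.I * (γ 1 0 : ℂ))
    have h4 := (h1c.sub h2).sub h3
    have hval : -((latPair (γ • τ : ℍ) (γ • τ : ℍ).im_pos).weierstrassP (w / j) + G2 (γ • τ))
          * (1 / j)
        - j * -((latPair τ τ.im_pos).weierstrassP w + G2 τ)
        - 2 * π * Complex.I * (γ 1 0 : ℂ) = 0 := by
      rw [weierstrassP_smul, G2_smul, ← hj_def, mul_div_cancel₀ _ hj]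
      field_simp
      ring
    rw [hval] at h4
    exact h4
  have hopen := isOpen_not_isLat τ.im_pos
  have hpre := isPreconnected_not_isLat τ.im_pos
  have hdiff : DifferentiableOn ℂ D {w : ℂ | ¬ IsLat w τ} := fun w hw =>
    (hderiv w hw).differentiableAt.differentiableWithinAt
  have hd0 : Set.EqOn (deriv D) 0 {w : ℂ | ¬ IsLat w τ} := fun w hw => (hderiv w hw).deriv
  have hconst := hopen.is_const_of_deriv_eq_zero hpre hdiff hd0 (x := z) (y := -z) hz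
    (not_isLat_neg hz)
  have hodd : D (-z) = -D z := by
    simp only [hD]
    rw [neg_div, zFun_neg, zFun_neg]
    ring
  rw [hodd] at hconst
  have hz0 : D z = 0 := by
    have : (2 : ℂ) * D z = 0 := by linear_combination hconst
    rcases mul_eq_zero.mp this with h | h
    · norm_num at h
    · exact h
  simp only [hD] at hz0
  linear_combination hz0

end Fermat.Agent.S48.Eis1
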