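import Mathlib
import Fermat.Agent.S48.Eis1.Homog

set_option autoImplicit false

/-!
# S48 (P2), weight-one Eisenstein series, file E: the division values `φ_v`  (helper33)

For `N ≥ 1`, `v = (r, s) ∈ ℤ²`, `v ≢ 0 mod N`:

  `φ_v(τ) = Z((rτ + s)/N, τ) + 2πi r/N`

* `phiFun_add`    : `φ_{v + N u} = φ_v`;
* `phiFun_smul`   : `φ_v(γτ) = (cτ+d) φ_{vγ}(τ)` for all `γ ∈ SL(2, ℤ)`;
* `phiFun_slash`  : `φ_v ∣[1] γ = φ_{vγ}`;
* `mdifferentiable_phiFun`, `isBoundedAtImInfty_phiFun`.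
-/

noncomputable section

open Complex Real Filter Topology EisensteinSeries ModularForm
open UpperHalfPlane hiding I
open scoped MatrixGroups Manifold

namespace Fermat.Agent.S48.Eis1

/-- the division point `(rτ + s)/N`. -/
def zPt (N : ℕ) (r s : ℤ) (t : ℂ) : ℂ := ((r : ℂ) * t + s) / N

/-- `φ_v` on `ℂ`. -/
def phiC (N : ℕ) (r s : ℤ) (t : ℂ) : ℂ := zFun (zPt N r s t) t + 2 * π * I * r / N

/-- `φ_v` on `ℍ`. -/
def phiFun (N : ℕ) (r s : ℤ) (τ : ℍ) : ℂ := phiC N r s τ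

theorem not_isLat_zPt {N : ℕ} [NeZero N] {r s : ℤ} (h : ¬ ((N : ℤ) ∣ r ∧ (N : ℤ) ∣ s))
    {t : ℂ} (ht : 0 < t.im) : ¬ IsLat (zPt N r s t) t := by
  rintro ⟨m, n, e⟩
  have hN : (N : ℂ) ≠ 0 := Nat.cast_ne_zero.mpr (NeZero.ne N)
  have e' : (r : ℂ) * t + s = N * (m * t + n) := by
    rw [zPt, div_eq_iff hN] at e
    rw [e]
    ring
  have him := congrArg Complex.im e'
  have hre := congrArg Complex.re e'
  simp at him hre
  have hr : (r : ℝ) = N * m := by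
    apply mul_right_cancel₀ ht.ne'
    linear_combination him
  have hs : (s : ℝ) = N * n := by
    linear_combination hre - t.re * hr
  apply h
  constructor
  · exact ⟨m, by exact_mod_cast hr⟩
  · exact ⟨n, by exact_mod_cast hs⟩

theorem zPt_add (N : ℕ) [NeZero N] (r s u v : ℤ) (t : ℂ) :
    zPt N (r + N * u) (s + N * v) t = zPt N r s t + u * t + v := by
  have hN : (N : ℂ) ≠ 0 := Nat.cast_ne_zero.mpr (NeZero.ne N)
  rw [zPt, zPt]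
  push_cast
  field_simp
  ring

/-- `φ_{v + N u} = φ_v`. -/
theorem phiC_add {N : ℕ} [NeZero N] {r s : ℤ} (h : ¬ ((N : ℤ) ∣ r ∧ (N : ℤ) ∣ s)) (u v : ℤ)
    {t : ℂ} (ht : 0 < t.im) :
    phiC N (r + N * u) (s + N * v) t = phiC N r s t := by
  have hN : (N : ℂ) ≠ 0 := Nat.cast_ne_zero.mpr (NeZero.ne N)
  rw [phiC, phiC, zPt_add, zFun_add_lat ht (not_isLat_zPt h ht)]
  push_cast
  field_simp
  ring

theorem phiFun_add {N : ℕ} [NeZero N] {r s : ℤ} (h : ¬ ((N : ℤ) ∣ r ∧ (N : ℤ) ∣ s)) (u v : ℤ)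
    (τ : ℍ) : phiFun N (r + N * u) (s + N * v) τ = phiFun N r s τ :=
  phiC_add h u v τ.im_pos

/-- `φ_v(γτ) = (cτ + d) φ_{vγ}(τ)`. -/
theorem phiFun_smul {N : ℕ} [NeZero N] {r s : ℤ} (h : ¬ ((N : ℤ) ∣ r ∧ (N : ℤ) ∣ s))
    (γ : SL(2, ℤ)) (τ : ℍ) :
    phiFun N r s (γ • τ)
      = jFac γ τ * phiFun N (r * γ 0 0 + s * γ 1 0) (r * γ 0 1 + s * γ 1 1) τ := by
  have hN : (N : ℂ) ≠ 0 := Nat.cast_ne_zero.mpr (NeZero.ne N)
  have hj := jFac_ne_zero γ τ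
  have hdet := sl2_det_complex γ
  have e1 : zPt N r s ((γ • τ : ℍ) : ℂ)
      = zPt N (r * γ 0 0 + s * γ 1 0) (r * γ 0 1 + s * γ 1 1) τ / jFac γ τ := by
    rw [zPt, zPt, coe_smul_eq]
    push_cast
    field_simp
    rw [jFac]
    ring
  have hz : ¬ IsLat (zPt N (r * γ 0 0 + s * γ 1 0) (r * γ 0 1 + s * γ 1 1) τ) τ := by
    have h0 := not_isLat_zPt h (γ • τ : ℍ).im_pos
    rw [e1, isLat_smul_iff, mul_div_cancel₀ _ hj] at h0
    exact h0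
  rw [phiFun, phiFun, phiC, phiC, e1, zFun_smul γ τ hz, zPt]
  push_cast
  field_simp
  rw [jFac]
  linear_combination (-(2 * π * I * (r : ℂ))) * hdet

theorem phiFun_slash {N : ℕ} [NeZero N] {r s : ℤ} (h : ¬ ((N : ℤ) ∣ r ∧ (N : ℤ) ∣ s))
    (γ : SL(2, ℤ)) :
    (phiFun N r s) ∣[(1 : ℤ)] γ = phiFun N (r * γ 0 0 + s * γ 1 0) (r * γ 0 1 + s * γ 1 1) := by
  funext τ
  rw [SL_slash_apply, phiFun_smul h]
  have hd : denom (Matrix.SpecialLinearGroup.toGL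
      ((Matrix.SpecialLinearGroup.map (Int.castRingHom ℝ)) γ)) (τ : ℂ) = jFac γ τ :=
    denom_eq_jFac γ τ
  rw [hd, zpow_neg, zpow_one, mul_comm (jFac γ τ), mul_assoc,
    mul_inv_cancel₀ (jFac_ne_zero γ τ), mul_one]


/-! ### bounds for `0 ≤ r < N` -/

theorem norm_eExp_affine (A B : ℝ) (t : ℂ) :
    ‖eExp ((A : ℂ) * t + (B : ℂ))‖ = Real.exp (-2 * π * (A * t.im)) := by
  rw [norm_eExp]
  congr 2
  simp

theorem norm_eExp_affine_le {N : ℕ} [NeZero N] {A δ : ℝ} (hδ : 0 < δ) (n : ℕ)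
    (hA : (n : ℝ) + 1 / N ≤ A) (B : ℝ) {t : ℂ} (ht : δ ≤ t.im) :
    ‖eExp ((A : ℂ) * t + (B : ℂ))‖
      ≤ Real.exp (-2 * π * δ / N) * Real.exp (-2 * π * δ) ^ n := by
  have hN : (0 : ℝ) < N := Nat.cast_pos.mpr (Nat.pos_of_ne_zero (NeZero.ne N))
  rw [norm_eExp_affine, ← Real.exp_nat_mul, ← Real.exp_add, Real.exp_le_exp]
  have hA0 : 0 ≤ A := le_trans (by positivity) hA
  have h1 : A * δ ≤ A * t.im := mul_le_mul_of_nonneg_left ht hA0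
  have h2 : ((n : ℝ) + 1 / N) * δ ≤ A * δ := mul_le_mul_of_nonneg_right hA hδ.le
  have e : -2 * π * δ / N + n * (-2 * π * δ) = -2 * π * (((n : ℝ) + 1 / N) * δ) := by
    field_simp
    ring
  rw [e]
  have := Real.pi_pos
  nlinarith

theorem zPt_eq_affine (N : ℕ) (r s : ℤ) (t : ℂ) :
    zPt N r s t = ((((r : ℝ) / N : ℝ)) : ℂ) * t + ((((s : ℝ) / N : ℝ)) : ℂ) := by
  rw [zPt]
  push_cast
  ring

theorem neg_zPt_add_eq (N : ℕ) (r s : ℤ) (t : ℂ) (n : ℕ) :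
    -zPt N r s t + ((n + 1 : ℕ) : ℂ) * t
      = (((((n : ℝ) + 1 - (r : ℝ) / N : ℝ))) : ℂ) * t + (((-((s : ℝ) / N) : ℝ)) : ℂ) := by
  rw [zPt]
  push_cast
  ring

theorem zPt_add_eq (N : ℕ) (r s : ℤ) (t : ℂ) (n : ℕ) :
    zPt N r s t + ((n + 1 : ℕ) : ℂ) * t
      = (((((n : ℝ) + 1 + (r : ℝ) / N : ℝ))) : ℂ) * t + ((((s : ℝ) / N : ℝ)) : ℂ) := by
  rw [zPt]
  push_cast
  ring

/-- `ρ = exp(-2πδ/N)`. -/
def rhoB (N : ℕ) (δ : ℝ) : ℝ := Real.exp (-2 * π * δ / N)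

/-- `Q = exp(-2πδ)`. -/
def qB (δ : ℝ) : ℝ := Real.exp (-2 * π * δ)

theorem rhoB_pos (N : ℕ) (δ : ℝ) : 0 < rhoB N δ := Real.exp_pos _

theorem rhoB_lt_one (N : ℕ) [NeZero N] {δ : ℝ} (hδ : 0 < δ) : rhoB N δ < 1 := by
  have hN : (0 : ℝ) < N := Nat.cast_pos.mpr (Nat.pos_of_ne_zero (NeZero.ne N))
  rw [rhoB, Real.exp_lt_one_iff]
  have : 0 < 2 * π * δ / N := by positivity
  have e : -2 * π * δ / N = -(2 * π * δ / N) := by ring
  rw [e]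
  linarith

theorem qB_nonneg (δ : ℝ) : 0 ≤ qB δ := (Real.exp_pos _).le

theorem qB_lt_one {δ : ℝ} (hδ : 0 < δ) : qB δ < 1 := by
  rw [qB, Real.exp_lt_one_iff]
  have := Real.pi_pos
  nlinarith

theorem rhoB_mul_le (N : ℕ) (δ : ℝ) {δ' : ℝ} (hδ : 0 < δ') (n : ℕ) :
    rhoB N δ * qB δ' ^ n ≤ rhoB N δ := by
  have h1 : qB δ' ^ n ≤ 1 := pow_le_one₀ (qB_nonneg δ') (qB_lt_one hδ).le
  have := rhoB_pos N δ
  nlinarith

theorem cast_bounds {N : ℕ} [NeZero N] {r : ℤ} (hr0 : 0 ≤ r) (hrN : r < N) :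
    (0 : ℝ) ≤ (r : ℝ) / N ∧ (r : ℝ) / N + 1 / N ≤ 1 := by
  have hN : (0 : ℝ) < N := Nat.cast_pos.mpr (Nat.pos_of_ne_zero (NeZero.ne N))
  have h0 : (0 : ℝ) ≤ r := by exact_mod_cast hr0
  have h1 : (r : ℝ) + 1 ≤ N := by exact_mod_cast Int.add_one_le_iff.mpr hrN
  constructor
  · positivity
  · rw [← add_div, div_le_one hN]
    exact h1

theorem norm_eExp_neg_zPt_le {N : ℕ} [NeZero N] {r : ℤ} (s : ℤ) (hr0 : 0 ≤ r) (hrN : r < N)
    {δ : ℝ} (hδ : 0 < δ) {t : ℂ} (ht : δ ≤ t.im) (n : ℕ) :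
    ‖eExp (-zPt N r s t + ((n + 1 : ℕ) : ℂ) * t)‖ ≤ rhoB N δ * qB δ ^ n := by
  rw [neg_zPt_add_eq]
  obtain ⟨h0, h1⟩ := cast_bounds hr0 hrN
  exact norm_eExp_affine_le hδ n (by linarith) _ ht

theorem norm_eExp_zPt_add_le {N : ℕ} [NeZero N] {r : ℤ} (s : ℤ) (hr0 : 0 ≤ r) (hrN : r < N)
    {δ : ℝ} (hδ : 0 < δ) {t : ℂ} (ht : δ ≤ t.im) (n : ℕ) :
    ‖eExp (zPt N r s t + ((n + 1 : ℕ) : ℂ) * t)‖ ≤ rhoB N δ * qB δ ^ n := by
  rw [zPt_add_eq]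
  obtain ⟨h0, h1⟩ := cast_bounds hr0 hrN
  have hN : (0 : ℝ) < N := Nat.cast_pos.mpr (Nat.pos_of_ne_zero (NeZero.ne N))
  have h2 : (1 : ℝ) / N ≤ 1 := by
    have : (0 : ℝ) ≤ (r : ℝ) / N := h0
    linarith
  exact norm_eExp_affine_le hδ n (by linarith) _ ht

theorem norm_eExp_zPt_le {N : ℕ} [NeZero N] {r : ℤ} (s : ℤ) (hr0 : 0 < r)
    {δ : ℝ} (hδ : 0 < δ) {t : ℂ} (ht : δ ≤ t.im) :
    ‖eExp (zPt N r s t)‖ ≤ rhoB N δ := by
  rw [zPt_eq_affine]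
  have hN : (0 : ℝ) < N := Nat.cast_pos.mpr (Nat.pos_of_ne_zero (NeZero.ne N))
  have h1 : (1 : ℝ) ≤ r := by exact_mod_cast Int.add_one_le_iff.mpr hr0
  have h2 : ((0 : ℕ) : ℝ) + 1 / N ≤ (r : ℝ) / N := by
    rw [Nat.cast_zero, zero_add]
    exact div_le_div_of_nonneg_right h1 hN.le
  have := norm_eExp_affine_le (N := N) hδ 0 h2 ((s : ℝ) / N) ht
  simpa [rhoB] using this

/-- the summable majorant. -/
def uB (N : ℕ) (δ : ℝ) (n : ℕ) : ℝ := 2 * (rhoB N δ * qB δ ^ n / (1 - rhoB N δ))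

theorem summable_uB (N : ℕ) {δ : ℝ} (hδ : 0 < δ) : Summable (uB N δ) := by
  have := (summable_geometric_of_lt_one (qB_nonneg δ) (qB_lt_one hδ)).mul_left
    (2 * (rhoB N δ / (1 - rhoB N δ)))
  refine this.congr fun n => ?_
  rw [uB]
  ring

theorem norm_zTerm_zPt_le {N : ℕ} [NeZero N] {r : ℤ} (s : ℤ) (hr0 : 0 ≤ r) (hrN : r < N)
    {δ : ℝ} (hδ : 0 < δ) {t : ℂ} (ht : δ ≤ t.im) (n : ℕ) :
    ‖zTerm (zPt N r s t) t n‖ ≤ uB N δ n := by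
  have hρ := rhoB_lt_one N hδ
  have hpos : 0 < 1 - rhoB N δ := by linarith
  have b1 := norm_eExp_neg_zPt_le s hr0 hrN hδ ht n
  have b2 := norm_eExp_zPt_add_le s hr0 hrN hδ ht n
  have hle := rhoB_mul_le N δ hδ n
  have g1 := (norm_gFun_le_of_le hρ (b1.trans hle)).trans
    (div_le_div_of_nonneg_right b1 hpos.le)
  have g2 := (norm_gFun_le_of_le hρ (b2.trans hle)).trans
    (div_le_div_of_nonneg_right b2 hpos.le)
  rw [zTerm, uB]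
  refine (norm_sub_le _ _).trans ?_
  linarith

theorem eExp_neg_zPt_ne_one {N : ℕ} [NeZero N] {r : ℤ} (s : ℤ) (hr0 : 0 ≤ r) (hrN : r < N)
    {t : ℂ} (ht : 0 < t.im) (n : ℕ) :
    eExp (-zPt N r s t + ((n + 1 : ℕ) : ℂ) * t) ≠ 1 := by
  refine eExp_ne_one_of_norm_lt ?_
  exact lt_of_le_of_lt ((norm_eExp_neg_zPt_le s hr0 hrN ht le_rfl n).trans
    (rhoB_mul_le N _ ht n)) (rhoB_lt_one N ht)

theorem eExp_zPt_add_ne_one {N : ℕ} [NeZero N] {r : ℤ} (s : ℤ) (hr0 : 0 ≤ r) (hrN : r < N)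
    {t : ℂ} (ht : 0 < t.im) (n : ℕ) :
    eExp (zPt N r s t + ((n + 1 : ℕ) : ℂ) * t) ≠ 1 := by
  refine eExp_ne_one_of_norm_lt ?_
  exact lt_of_le_of_lt ((norm_eExp_zPt_add_le s hr0 hrN ht le_rfl n).trans
    (rhoB_mul_le N _ ht n)) (rhoB_lt_one N ht)

/-! ### holomorphy -/

theorem differentiable_zPt (N : ℕ) (r s : ℤ) : Differentiable ℂ (zPt N r s) := by
  unfold zPt
  fun_prop

theorem differentiableAt_zTerm_zPt {N : ℕ} [NeZero N] {r : ℤ} (s : ℤ) (hr0 : 0 ≤ r)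
    (hrN : r < N) {t : ℂ} (ht : 0 < t.im) (n : ℕ) :
    DifferentiableAt ℂ (fun t : ℂ => zTerm (zPt N r s t) t n) t := by
  have h1 := eExp_neg_zPt_ne_one s hr0 hrN ht n
  have h2 := eExp_zPt_add_ne_one s hr0 hrN ht n
  have d1 : DifferentiableAt ℂ (fun t : ℂ => -zPt N r s t + ((n + 1 : ℕ) : ℂ) * t) t := by
    have := (differentiable_zPt N r s) t
    fun_prop
  have d2 : DifferentiableAt ℂ (fun t : ℂ => zPt N r s t + ((n + 1 : ℕ) : ℂ) * t) t := by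
    have := (differentiable_zPt N r s) t
    fun_prop
  have c1 := (hasDerivAt_gFun_eExp h1).differentiableAt.comp t d1
  have c2 := (hasDerivAt_gFun_eExp h2).differentiableAt.comp t d2
  exact c1.sub c2

theorem differentiableAt_phiC_red {N : ℕ} [NeZero N] {r s : ℤ}
    (h : ¬ ((N : ℤ) ∣ r ∧ (N : ℤ) ∣ s)) (hr0 : 0 ≤ r) (hrN : r < N) {t₀ : ℂ}
    (ht₀ : 0 < t₀.im) : DifferentiableAt ℂ (phiC N r s) t₀ := by
  set δ : ℝ := t₀.im / 2 with hδ_def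
  have hδ : 0 < δ := by positivity
  have hU : IsOpen {t : ℂ | δ < t.im} := isOpen_lt continuous_const Complex.continuous_im
  have ht₀U : t₀ ∈ {t : ℂ | δ < t.im} := by
    show δ < t₀.im
    rw [hδ_def]
    linarith
  have hsum : DifferentiableOn ℂ (fun t : ℂ => ∑' n : ℕ, zTerm (zPt N r s t) t n)
      {t : ℂ | δ < t.im} := by
    refine differentiableOn_tsum_of_summable_norm (summable_uB N hδ) (fun n t ht => ?_) hU
      (fun n t ht => ?_)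
    · exact (differentiableAt_zTerm_zPt s hr0 hrN (lt_trans hδ ht) n).differentiableWithinAt
    · exact norm_zTerm_zPt_le s hr0 hrN hδ (le_of_lt ht) n
  have hsum' := hsum.differentiableAt (hU.mem_nhds ht₀U)
  have hcot : DifferentiableAt ℂ (fun t : ℂ => π * Complex.cot (π * zPt N r s t)) t₀ := by
    have hne : eExp (zPt N r s t₀) ≠ 1 := eExp_ne_one_of_not_isLat' (not_isLat_zPt h ht₀)
    exact (eis1_hasDerivAt_pi_cot hne).differentiableAt.comp t₀ ((differentiable_zPt N r s) t₀)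
  have : phiC N r s = fun t : ℂ => π * Complex.cot (π * zPt N r s t)
      + 2 * π * I * (∑' n : ℕ, zTerm (zPt N r s t) t n) + 2 * π * I * r / N := by
    funext t
    rw [phiC, zFun]
  rw [this]
  exact (hcot.add (hsum'.const_mul _)).add_const _

theorem dvd_emod_iff_aux (N : ℕ) (r : ℤ) : (N : ℤ) ∣ r % N ↔ (N : ℤ) ∣ r := by
  constructor
  · intro h
    have := Int.emod_add_mul_ediv r N
    rw [← this]
    exact dvd_add h (dvd_mul_right _ _)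
  · intro h
    have := Int.emod_add_mul_ediv r N
    have e : r % (N : ℤ) = r - (N : ℤ) * (r / N) := by linarith
    rw [e]
    exact dvd_sub h (dvd_mul_right _ _)

theorem phiC_emod {N : ℕ} [NeZero N] {r s : ℤ} (h : ¬ ((N : ℤ) ∣ r ∧ (N : ℤ) ∣ s))
    {t : ℂ} (ht : 0 < t.im) : phiC N r s t = phiC N (r % N) s t := by
  have h' : ¬ ((N : ℤ) ∣ r % N ∧ (N : ℤ) ∣ s) := by
    rw [dvd_emod_iff_aux]
    exact h
  have := phiC_add h' (r / N) 0 ht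
  rw [mul_zero, add_zero, Int.emod_add_mul_ediv] at this
  exact this

theorem differentiableOn_phiC {N : ℕ} [NeZero N] {r s : ℤ}
    (h : ¬ ((N : ℤ) ∣ r ∧ (N : ℤ) ∣ s)) :
    DifferentiableOn ℂ (phiC N r s) {t : ℂ | 0 < t.im} := by
  have hN : (0 : ℤ) < N := by exact_mod_cast Nat.pos_of_ne_zero (NeZero.ne N)
  have h' : ¬ ((N : ℤ) ∣ r % N ∧ (N : ℤ) ∣ s) := by
    rw [dvd_emod_iff_aux]
    exact h
  have hU : IsOpen {t : ℂ | 0 < t.im} := isOpen_lt continuous_const Complex.continuous_im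
  intro t ht
  have hd := differentiableAt_phiC_red h' (Int.emod_nonneg r hN.ne') (Int.emod_lt_of_pos r hN) ht
  refine (hd.congr_of_eventuallyEq ?_).differentiableWithinAt
  filter_upwards [hU.mem_nhds ht] with y hy
  exact phiC_emod h hy

theorem mdifferentiable_phiFun {N : ℕ} [NeZero N] {r s : ℤ}
    (h : ¬ ((N : ℤ) ∣ r ∧ (N : ℤ) ∣ s)) :
    MDifferentiable 𝓘(ℂ) 𝓘(ℂ) (phiFun N r s) := by
  rw [UpperHalfPlane.mdifferentiable_iff]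
  refine (differentiableOn_phiC h).congr fun t ht => ?_
  simp only [Function.comp_apply, phiFun]
  rw [ofComplex_apply_of_im_pos ht]

/-! ### boundedness at `i∞` -/

theorem exists_bound_phiC_red {N : ℕ} [NeZero N] {r s : ℤ}
    (_h : ¬ ((N : ℤ) ∣ r ∧ (N : ℤ) ∣ s)) (hr0 : 0 ≤ r) (hrN : r < N) :
    ∃ M : ℝ, ∀ t : ℂ, 1 ≤ t.im → ‖phiC N r s t‖ ≤ M := by
  have hδ : (0 : ℝ) < 1 := one_pos
  have hρ := rhoB_lt_one N hδ
  have hpos : 0 < 1 - rhoB N 1 := by linarith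
  have hn2 : ‖(2 * π * I : ℂ)‖ = 2 * π := by
    simp [abs_of_pos Real.pi_pos]
  -- the cotangent part
  have hcot : ∃ C : ℝ, ∀ t : ℂ, 1 ≤ t.im → ‖(π : ℂ) * Complex.cot (π * zPt N r s t)‖ ≤ C := by
    rcases hr0.lt_or_eq with hr | hr
    · refine ⟨π + 2 * π * (rhoB N 1 / (1 - rhoB N 1)), fun t ht => ?_⟩
      have hb := norm_eExp_zPt_le (N := N) s hr hδ ht
      have hne : eExp (zPt N r s t) ≠ 1 := eExp_ne_one_of_norm_lt (lt_of_le_of_lt hb hρ)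
      have hg := (norm_gFun_le_of_le hρ hb).trans (div_le_div_of_nonneg_right hb hpos.le)
      rw [eis1_pi_cot_eq hne]
      refine (norm_sub_le _ _).trans ?_
      rw [norm_neg, norm_mul, norm_mul, hn2]
      have e1 : ‖(π : ℂ)‖ = π := by simp [abs_of_pos Real.pi_pos]
      rw [e1, Complex.norm_I, mul_one]
      have := Real.pi_pos
      nlinarith
    · refine ⟨‖(π : ℂ) * Complex.cot (π * ((s : ℂ) / N))‖, fun t _ => ?_⟩
      rw [zPt, ← hr]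
      simp
  obtain ⟨C, hC⟩ := hcot
  refine ⟨C + 2 * π * (∑' n : ℕ, uB N 1 n) + ‖(2 * π * I * r / N : ℂ)‖, fun t ht => ?_⟩
  have hts : ‖∑' n : ℕ, zTerm (zPt N r s t) t n‖ ≤ ∑' n : ℕ, uB N 1 n :=
    tsum_of_norm_bounded (summable_uB N hδ).hasSum
      (fun n => norm_zTerm_zPt_le s hr0 hrN hδ ht n)
  rw [phiC, zFun]
  refine (norm_add_le _ _).trans ?_
  refine add_le_add ((norm_add_le _ _).trans (add_le_add (hC t ht) ?_)) le_rfl
  rw [norm_mul, hn2]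
  have := Real.pi_pos
  exact mul_le_mul_of_nonneg_left hts (by positivity)

theorem isBoundedAtImInfty_phiFun {N : ℕ} [NeZero N] {r s : ℤ}
    (h : ¬ ((N : ℤ) ∣ r ∧ (N : ℤ) ∣ s)) : IsBoundedAtImInfty (phiFun N r s) := by
  have hN : (0 : ℤ) < N := by exact_mod_cast Nat.pos_of_ne_zero (NeZero.ne N)
  have h' : ¬ ((N : ℤ) ∣ r % N ∧ (N : ℤ) ∣ s) := by
    rw [dvd_emod_iff_aux]
    exact h
  obtain ⟨M, hM⟩ := exists_bound_phiC_red h' (Int.emod_nonneg r hN.ne')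
    (Int.emod_lt_of_pos r hN)
  rw [UpperHalfPlane.isBoundedAtImInfty_iff]
  refine ⟨M, 1, fun τ hτ => ?_⟩
  rw [phiFun, phiC_emod h τ.im_pos]
  exact hM τ hτ

end Fermat.Agent.S48.Eis1
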