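import Mathlib
import Fermat.Agent.S48.Eis1.Phi

set_option autoImplicit false

/-!
# S48 (P2): the function `E₁^ψ`  (helper33)

`E₁^ψ(τ) = (-4πi)⁻¹ ∑_{y mod N} ψ(y) φ_{(y,0)}(Nτ)`,
`φ_{(y,0)}(Nτ) = Z(yτ, Nτ) + 2πi y/N`  (`phiC N y 0 (N τ)`).

Seats:
* `Eis1/QExp.lean` : `hasSum_eis1Fun` (the `q`-expansion, statement `Eis1QExpStatement` below);
* `Eis1/Main.lean` : the modular form on `Γ₁(N)`, nebentypus, `eis1Statement`.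
-/

noncomputable section

open Complex Real
open UpperHalfPlane hiding I
open scoped MatrixGroups

namespace Fermat.Agent.S48.Eis1

/-- `E₁^ψ(τ) = (-4πi)⁻¹ ∑_{y mod N} ψ(y) (Z(yτ, Nτ) + 2πi y/N)`. -/
def eis1Fun (N : ℕ) [NeZero N] (ψ : DirichletCharacter ℂ N) (τ : ℍ) : ℂ :=
  (-(4 * π * I))⁻¹ * ∑ y : ZMod N, ψ y * phiC N (y.val : ℤ) 0 ((N : ℂ) * τ)

/-- the `q`-coefficients of `E₁^ψ`. -/
def eis1Coeff (N : ℕ) [NeZero N] (ψ : DirichletCharacter ℂ N) (n : ℕ) : ℂ :=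
  if n = 0 then -(1 / (2 * (N : ℂ))) * ∑ a ∈ Finset.range N, (a : ℂ) * ψ (a : ZMod N)
  else ∑ d ∈ n.divisors, ψ (d : ZMod N)

/-- **the `q`-expansion of `E₁^ψ`** (seat QEXP): for odd `ψ`,
`E₁^ψ(τ) = ∑_n eis1Coeff n · qⁿ`, `q = exp(2πi τ)`. -/
def Eis1QExpStatement : Prop :=
  ∀ (N : ℕ) [NeZero N] (ψ : DirichletCharacter ℂ N), ψ.Odd → ∀ τ : ℍ,
    HasSum (fun n : ℕ => eis1Coeff N ψ n • Function.Periodic.qParam 1 τ ^ n) (eis1Fun N ψ τ)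

end Fermat.Agent.S48.Eis1
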