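import Mathlib
import Fermat.Agent.S48.Eis1.Def
import Fermat.Agent.S48.Eis1.Statement

set_option autoImplicit false
set_option synthInstance.maxHeartbeats 400000

/-!
# S48 (P2): the weight-one Eisenstein series `E₁^ψ` as a modular form on `Γ₁(N)`  (helper33)

* `fSum N ψ = ∑_{u ∈ (ℤ/N)ˣ} ψ(u) φ_{(u,0)}` is a modular form of weight one on `Γ(N)`
  (`fSumMF`), and `fSum(γ̃ T) = j ψ(d) fSum(T)` for `γ̃ ≡ (a 0; * d) mod N`;
* `E₁^ψ(τ) = (-4πi)⁻¹ fSum(Nτ)` is a modular form on `Γ₁(N)` with nebentypus `ψ`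
  (`eis1MF`, `eis1_neb`);
* `eis1Statement_of : Eis1QExpStatement → Eis1Statement`.
-/

noncomputable section

open Complex Real Filter Topology EisensteinSeries ModularForm CongruenceSubgroup
open UpperHalfPlane hiding I
open scoped MatrixGroups Manifold Pointwise

namespace Fermat.Agent.S48.Eis1

/-- `Φ(y) = φ_{(y, 0)}` for `y ∈ ℤ/N`. -/
def phiZ (N : ℕ) (y : ZMod N) : ℍ → ℂ := phiFun N (y.val : ℤ) 0

theorem not_dvd_of_intCast_ne_zero {N : ℕ} {m : ℤ} (h : (m : ZMod N) ≠ 0) : ¬ (N : ℤ) ∣ m :=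
  fun hd => h ((ZMod.intCast_zmod_eq_zero_iff_dvd m N).mpr hd)

/-- `φ_{(m, n)} = Φ(m mod N)` if `N ∣ n`, `N ∤ m`. -/
theorem phiFun_eq_phiZ {N : ℕ} [NeZero N] {m n : ℤ} (hm : (m : ZMod N) ≠ 0)
    (hn : (N : ℤ) ∣ n) : phiFun N m n = phiZ N (m : ZMod N) := by
  funext τ
  obtain ⟨v, rfl⟩ := hn
  have hval : (((m : ZMod N)).val : ℤ) = m % N := ZMod.val_intCast m
  have h' : ¬ ((N : ℤ) ∣ m % N ∧ (N : ℤ) ∣ 0) := by
    rw [dvd_emod_iff_aux]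
    exact fun h => not_dvd_of_intCast_ne_zero hm h.1
  have := phiFun_add h' (m / N) v τ
  rw [Int.emod_add_mul_ediv, zero_add] at this
  rw [this, phiZ, hval]

theorem intCast_val_eq {N : ℕ} [NeZero N] (y : ZMod N) : (((y.val : ℕ) : ℤ) : ZMod N) = y := by
  rw [Int.cast_natCast, ZMod.natCast_zmod_val]

theorem unit_val_not_dvd {N : ℕ} [NeZero N] (hN : 1 < N) (u : (ZMod N)ˣ) :
    ¬ ((N : ℤ) ∣ (((u : ZMod N).val : ℕ) : ℤ) ∧ (N : ℤ) ∣ 0) := by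
  have : Fact (1 < N) := ⟨hN⟩
  intro h
  have h1 := (ZMod.intCast_zmod_eq_zero_iff_dvd _ N).mpr h.1
  rw [intCast_val_eq] at h1
  exact u.ne_zero h1

/-- `F = ∑_{u ∈ (ℤ/N)ˣ} ψ(u) φ_{(u, 0)}`. -/
def fSum (N : ℕ) [NeZero N] (ψ : DirichletCharacter ℂ N) (τ : ℍ) : ℂ :=
  ∑ u : (ZMod N)ˣ, ψ u * phiZ N (u : ZMod N) τ

/-- the translate of `F` by `γ`. -/
def fSumAt (N : ℕ) [NeZero N] (ψ : DirichletCharacter ℂ N) (γ : SL(2, ℤ)) (τ : ℍ) : ℂ :=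
  ∑ u : (ZMod N)ˣ, ψ u *
    phiFun N ((((u : ZMod N).val : ℕ) : ℤ) * γ 0 0) ((((u : ZMod N).val : ℕ) : ℤ) * γ 0 1) τ

theorem fSum_smul {N : ℕ} [NeZero N] (hN : 1 < N) (ψ : DirichletCharacter ℂ N)
    (γ : SL(2, ℤ)) (τ : ℍ) :
    fSum N ψ (γ • τ) = jFac γ τ * fSumAt N ψ γ τ := by
  rw [fSum, fSumAt, Finset.mul_sum]
  refine Finset.sum_congr rfl fun u _ => ?_
  rw [phiZ, phiFun_smul (unit_val_not_dvd hN u)]
  simp only [zero_mul, add_zero]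
  ring

theorem fSum_slash {N : ℕ} [NeZero N] (hN : 1 < N) (ψ : DirichletCharacter ℂ N)
    (γ : SL(2, ℤ)) : (fSum N ψ) ∣[(1 : ℤ)] γ = fSumAt N ψ γ := by
  funext τ
  rw [SL_slash_apply, fSum_smul hN]
  have hd : denom (Matrix.SpecialLinearGroup.toGL
      ((Matrix.SpecialLinearGroup.map (Int.castRingHom ℝ)) γ)) (τ : ℂ) = jFac γ τ :=
    denom_eq_jFac γ τ
  rw [hd, zpow_neg, zpow_one, mul_comm (jFac γ τ), mul_assoc,
    mul_inv_cancel₀ (jFac_ne_zero γ τ), mul_one]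

theorem unit_mul_ne_zero {N : ℕ} [NeZero N] (hN : 1 < N) (u : (ZMod N)ˣ) {a : ℤ}
    (ha : IsUnit (a : ZMod N)) :
    ((((((u : ZMod N).val : ℕ) : ℤ) * a : ℤ)) : ZMod N) ≠ 0 := by
  have : Fact (1 < N) := ⟨hN⟩
  rw [Int.cast_mul, intCast_val_eq]
  exact (u.isUnit.mul ha).ne_zero

theorem phiFun_unit {N : ℕ} [NeZero N] (hN : 1 < N) (u : (ZMod N)ˣ) {a b : ℤ}
    (ha : IsUnit (a : ZMod N)) (hb : (b : ZMod N) = 0) :
    phiFun N ((((u : ZMod N).val : ℕ) : ℤ) * a) ((((u : ZMod N).val : ℕ) : ℤ) * b)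
      = phiZ N ((u : ZMod N) * (a : ZMod N)) := by
  have hb' : (N : ℤ) ∣ (((u : ZMod N).val : ℕ) : ℤ) * b :=
    Dvd.dvd.mul_left ((ZMod.intCast_zmod_eq_zero_iff_dvd b N).mp hb) _
  rw [phiFun_eq_phiZ (unit_mul_ne_zero hN u ha) hb', Int.cast_mul, intCast_val_eq]

/-- `F(γ̃ T) = j · ψ(a)⁻¹ F(T)` for `γ̃ = (a b; c d)` with `b ≡ 0 mod N`. -/
theorem fSumAt_of_upper {N : ℕ} [NeZero N] (hN : 1 < N) (ψ : DirichletCharacter ℂ N)
    (γ : SL(2, ℤ)) (a : (ZMod N)ˣ) (ha : ((γ 0 0 : ℤ) : ZMod N) = a)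
    (hb : ((γ 0 1 : ℤ) : ZMod N) = 0) (τ : ℍ) :
    fSumAt N ψ γ τ = ψ (a⁻¹ : (ZMod N)ˣ) * fSum N ψ τ := by
  have hau : IsUnit ((γ 0 0 : ℤ) : ZMod N) := by
    rw [ha]
    exact a.isUnit
  rw [fSumAt, fSum, Finset.mul_sum]
  have e1 : ∀ u : (ZMod N)ˣ, ψ u *
      phiFun N ((((u : ZMod N).val : ℕ) : ℤ) * γ 0 0) ((((u : ZMod N).val : ℕ) : ℤ) * γ 0 1) τ
      = ψ (a⁻¹ : (ZMod N)ˣ) * (ψ ((u * a : (ZMod N)ˣ)) * phiZ N ((u * a : (ZMod N)ˣ) : ZMod N) τ) := by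
    intro u
    rw [phiFun_unit hN u hau hb, ha]
    have : ψ (a⁻¹ : (ZMod N)ˣ) * ψ ((u * a : (ZMod N)ˣ)) = ψ u := by
      rw [← map_mul]
      congr 1
      push_cast
      rw [mul_comm, mul_assoc, Units.mul_inv, mul_one]
    rw [← mul_assoc, this]
    push_cast
    rfl
  simp_rw [e1]
  exact Fintype.sum_equiv (Equiv.mulRight a) _ _ (fun u => rfl)


/-! ### `F` is a modular form on `Γ(N)` -/

theorem unit_row_not_dvd {N : ℕ} [NeZero N] (hN : 1 < N) (u : (ZMod N)ˣ) (γ : SL(2, ℤ)) :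
    ¬ ((N : ℤ) ∣ (((u : ZMod N).val : ℕ) : ℤ) * γ 0 0 ∧
      (N : ℤ) ∣ (((u : ZMod N).val : ℕ) : ℤ) * γ 0 1) := by
  rintro ⟨h1, h2⟩
  have hdet : γ 0 0 * γ 1 1 - γ 0 1 * γ 1 0 = 1 := by
    have h := γ.det_coe
    rw [Matrix.det_fin_two] at h
    exact h
  have h3 : (N : ℤ) ∣ (((u : ZMod N).val : ℕ) : ℤ) := by
    have e : (((u : ZMod N).val : ℕ) : ℤ)
        = (((u : ZMod N).val : ℕ) : ℤ) * γ 0 0 * γ 1 1
          - (((u : ZMod N).val : ℕ) : ℤ) * γ 0 1 * γ 1 0 := by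
      linear_combination (-(((u : ZMod N).val : ℕ) : ℤ)) * hdet
    rw [e]
    exact dvd_sub (Dvd.dvd.mul_right h1 _) (Dvd.dvd.mul_right h2 _)
  exact unit_val_not_dvd hN u ⟨h3, dvd_zero _⟩

theorem fSumAt_eq_sum {N : ℕ} [NeZero N] (ψ : DirichletCharacter ℂ N) (γ : SL(2, ℤ)) :
    fSumAt N ψ γ = ∑ u : (ZMod N)ˣ, (ψ u) •
      phiFun N ((((u : ZMod N).val : ℕ) : ℤ) * γ 0 0) ((((u : ZMod N).val : ℕ) : ℤ) * γ 0 1) := by
  funext τ
  rw [fSumAt, Finset.sum_apply]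
  rfl

theorem mdifferentiable_fSumAt {N : ℕ} [NeZero N] (hN : 1 < N) (ψ : DirichletCharacter ℂ N)
    (γ : SL(2, ℤ)) : MDifferentiable 𝓘(ℂ) 𝓘(ℂ) (fSumAt N ψ γ) := by
  rw [fSumAt_eq_sum]
  exact MDifferentiable.sum fun u _ =>
    (mdifferentiable_phiFun (unit_row_not_dvd hN u γ)).const_smul _

theorem isBoundedAtImInfty_fSumAt {N : ℕ} [NeZero N] (hN : 1 < N)
    (ψ : DirichletCharacter ℂ N) (γ : SL(2, ℤ)) : IsBoundedAtImInfty (fSumAt N ψ γ) := by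
  rw [fSumAt_eq_sum]
  refine Finset.sum_induction _ (fun f : ℍ → ℂ => IsBoundedAtImInfty f)
    (fun f g hf hg => Filter.BoundedAtFilter.add hf hg) ?_ (fun u _ => ?_)
  · exact Filter.const_boundedAtFilter _ (0 : ℂ)
  · exact Filter.BoundedAtFilter.smul _ (isBoundedAtImInfty_phiFun (unit_row_not_dvd hN u γ))

theorem fSumAt_one {N : ℕ} [NeZero N] (ψ : DirichletCharacter ℂ N) :
    fSumAt N ψ 1 = fSum N ψ := by
  funext τ
  rw [fSumAt, fSum]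
  refine Finset.sum_congr rfl fun u _ => ?_
  simp [phiZ]

theorem fSumAt_of_mem_Gamma {N : ℕ} [NeZero N] (hN : 1 < N) (ψ : DirichletCharacter ℂ N)
    {γ : SL(2, ℤ)} (hγ : γ ∈ CongruenceSubgroup.Gamma N) : fSumAt N ψ γ = fSum N ψ := by
  funext τ
  rw [Gamma_mem] at hγ
  have := fSumAt_of_upper hN ψ γ 1 (by simpa using hγ.1) hγ.2.1 τ
  simpa using this

/-- `F` as a modular form of weight one on `Γ(N)`. -/
def fSumMF {N : ℕ} [NeZero N] (hN : 1 < N) (ψ : DirichletCharacter ℂ N) :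
    ModularForm (CongruenceSubgroup.Gamma N) 1 where
  toFun := fSum N ψ
  slash_action_eq' := by
    intro g hg
    obtain ⟨γ, hγ, rfl⟩ := Subgroup.mem_map.mp hg
    have := fSum_slash hN ψ γ
    rw [fSumAt_of_mem_Gamma hN ψ hγ] at this
    rwa [SL_slash] at this
  holo' := by
    have := mdifferentiable_fSumAt hN ψ 1
    rw [fSumAt_one] at this
    exact this
  bdd_at_cusps' := by
    intro c hc
    rw [Subgroup.IsArithmetic.isCusp_iff_isCusp_SL2Z] at hc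
    rw [OnePoint.isBoundedAt_iff_forall_SL2Z hc]
    intro γ _
    have := isBoundedAtImInfty_fSumAt hN ψ γ
    rw [← fSum_slash hN] at this
    exact this

theorem coe_fSumMF {N : ℕ} [NeZero N] (hN : 1 < N) (ψ : DirichletCharacter ℂ N) :
    (fSumMF hN ψ : ℍ → ℂ) = fSum N ψ := rfl


/-! ### level raising `τ ↦ Nτ` -/

/-- `diag(N, 1) ∈ GL₂(ℚ)`. -/
def lvlQ (N : ℕ) [NeZero N] : GL (Fin 2) ℚ :=
  Matrix.GeneralLinearGroup.mkOfDetNeZero !![(N : ℚ), 0; 0, 1]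
    (by simp [Matrix.det_fin_two, NeZero.ne N])

/-- `diag(N, 1) ∈ GL₂(ℝ)`. -/
def lvlR (N : ℕ) [NeZero N] : GL (Fin 2) ℝ :=
  Matrix.GeneralLinearGroup.map (Rat.castHom ℝ) (lvlQ N)

theorem lvlR_coe (N : ℕ) [NeZero N] :
    (lvlR N : Matrix (Fin 2) (Fin 2) ℝ) = !![(N : ℝ), 0; 0, 1] := by
  ext i j
  fin_cases i <;> fin_cases j <;> simp [lvlR, lvlQ, Matrix.GeneralLinearGroup.map]

theorem lvlR_det_pos (N : ℕ) [NeZero N] : 0 < (lvlR N).det.val := by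
  have h : (lvlR N).det.val = (N : ℝ) := by
    simp [lvlR, lvlQ, Matrix.GeneralLinearGroup.map, Matrix.det_fin_two]
  rw [h]
  exact Nat.cast_pos.mpr (Nat.pos_of_ne_zero (NeZero.ne N))

theorem sigma_lvlR (N : ℕ) [NeZero N] (z : ℂ) : σ (lvlR N) z = z := by
  rw [σ, if_pos (lvlR_det_pos N)]
  rfl

theorem num_lvlR (N : ℕ) [NeZero N] (z : ℂ) : num (lvlR N) z = (N : ℂ) * z := by
  rw [num, lvlR_coe]
  simp

theorem denom_lvlR (N : ℕ) [NeZero N] (z : ℂ) : denom (lvlR N) z = 1 := by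
  rw [denom, lvlR_coe]
  simp

theorem coe_lvlR_smul (N : ℕ) [NeZero N] (τ : ℍ) :
    ((lvlR N • τ : ℍ) : ℂ) = (N : ℂ) * τ := by
  rw [UpperHalfPlane.coe_smul, sigma_lvlR, num_lvlR, denom_lvlR, div_one]

theorem slash_lvlR (N : ℕ) [NeZero N] (f : ℍ → ℂ) (τ : ℍ) :
    (f ∣[(1 : ℤ)] lvlR N) τ = f (lvlR N • τ) := by
  rw [ModularForm.slash_apply, sigma_lvlR, denom_lvlR]
  simp

/-- the matrix `(a, N b; c / N, d)` of `γ = (a, b; c, d) ∈ Γ₀(N)`. -/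
def conjMat (N : ℕ) (γ : SL(2, ℤ)) : Matrix (Fin 2) (Fin 2) ℤ :=
  !![γ 0 0, N * γ 0 1; γ 1 0 / N, γ 1 1]

theorem conjMat_det {N : ℕ} {γ : SL(2, ℤ)} (hγ : γ ∈ Gamma0 N) : (conjMat N γ).det = 1 := by
  rw [Gamma0_mem] at hγ
  have hd : (N : ℤ) ∣ γ 1 0 := (ZMod.intCast_zmod_eq_zero_iff_dvd _ N).mp hγ
  have hdet : γ 0 0 * γ 1 1 - γ 0 1 * γ 1 0 = 1 := by
    have h := γ.det_coe
    rw [Matrix.det_fin_two] at h
    exact h
  rw [conjMat, Matrix.det_fin_two]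
  simp only [Matrix.of_apply, Matrix.cons_val', Matrix.cons_val_zero, Matrix.cons_val_one,
    Matrix.cons_val_fin_one]
  rw [mul_assoc, mul_comm (N : ℤ), mul_assoc, Int.ediv_mul_cancel hd]
  linarith

/-- `γ̃ = (a, N b; c / N, d) ∈ SL(2, ℤ)`. -/
def conjSL (N : ℕ) (γ : SL(2, ℤ)) (hγ : γ ∈ Gamma0 N) : SL(2, ℤ) :=
  ⟨conjMat N γ, conjMat_det hγ⟩

theorem conjSL_apply (N : ℕ) (γ : SL(2, ℤ)) (hγ : γ ∈ Gamma0 N) :
    (conjSL N γ hγ) 0 0 = γ 0 0 ∧ (conjSL N γ hγ) 0 1 = N * γ 0 1 ∧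
      (conjSL N γ hγ) 1 0 = γ 1 0 / N ∧ (conjSL N γ hγ) 1 1 = γ 1 1 := by
  refine ⟨rfl, rfl, rfl, rfl⟩

theorem jFac_conjSL (N : ℕ) [NeZero N] (γ : SL(2, ℤ)) (hγ : γ ∈ Gamma0 N) (τ : ℍ) :
    jFac (conjSL N γ hγ) (lvlR N • τ) = jFac γ τ := by
  have hN : (N : ℂ) ≠ 0 := Nat.cast_ne_zero.mpr (NeZero.ne N)
  have hd : (N : ℤ) ∣ γ 1 0 := (ZMod.intCast_zmod_eq_zero_iff_dvd _ N).mp (Gamma0_mem.mp hγ)
  obtain ⟨h00, h01, h10, h11⟩ := conjSL_apply N γ hγ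
  rw [jFac, jFac, coe_lvlR_smul, h10, h11]
  obtain ⟨k, hk⟩ := hd
  rw [hk, Int.mul_ediv_cancel_left _ (by exact_mod_cast NeZero.ne N)]
  push_cast
  ring

theorem conjSL_smul (N : ℕ) [NeZero N] (γ : SL(2, ℤ)) (hγ : γ ∈ Gamma0 N) (τ : ℍ) :
    conjSL N γ hγ • (lvlR N • τ) = lvlR N • (γ • τ) := by
  have hN : (N : ℂ) ≠ 0 := Nat.cast_ne_zero.mpr (NeZero.ne N)
  apply UpperHalfPlane.ext
  rw [coe_smul_eq, jFac_conjSL, coe_lvlR_smul, coe_lvlR_smul, coe_smul_eq]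
  obtain ⟨h00, h01, h10, h11⟩ := conjSL_apply N γ hγ
  rw [h00, h01]
  push_cast
  field_simp

/-- `F(N γτ) = (cτ + d) ψ(d) F(Nτ)` for `γ ∈ Γ₀(N)`. -/
theorem fSum_lvl_smul {N : ℕ} [NeZero N] (hN : 1 < N) (ψ : DirichletCharacter ℂ N)
    (γ : SL(2, ℤ)) (hγ : γ ∈ Gamma0 N) (τ : ℍ) :
    fSum N ψ (lvlR N • (γ • τ))
      = jFac γ τ * (ψ ((γ 1 1 : ℤ) : ZMod N) * fSum N ψ (lvlR N • τ)) := by
  have hc : ((γ 1 0 : ℤ) : ZMod N) = 0 := Gamma0_mem.mp hγ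
  have hdet : ((γ 0 0 : ℤ) : ZMod N) * ((γ 1 1 : ℤ) : ZMod N) = 1 := by
    have h := γ.det_coe
    rw [Matrix.det_fin_two] at h
    have h2 := congrArg (fun x : ℤ => (x : ZMod N)) h
    simp only [Int.cast_sub, Int.cast_mul, Int.cast_one] at h2
    rw [hc, mul_zero, sub_zero] at h2
    exact h2
  let a : (ZMod N)ˣ := ⟨((γ 0 0 : ℤ) : ZMod N), ((γ 1 1 : ℤ) : ZMod N), hdet,
    by rw [mul_comm]; exact hdet⟩
  obtain ⟨h00, h01, h10, h11⟩ := conjSL_apply N γ hγ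
  rw [← conjSL_smul N γ hγ τ, fSum_smul hN, jFac_conjSL,
    fSumAt_of_upper hN ψ (conjSL N γ hγ) a (by rw [h00]) (by rw [h01]; simp)]
  rfl


/-! ### the modular form `E₁^ψ` on `Γ₁(N)` -/

/-- `E₁^ψ(τ) = (-4πi)⁻¹ F(Nτ)`. -/
def eis1MFun (N : ℕ) [NeZero N] (ψ : DirichletCharacter ℂ N) (τ : ℍ) : ℂ :=
  (-(4 * π * I))⁻¹ * fSum N ψ (lvlR N • τ)

theorem eis1MFun_eq_smul_slash (N : ℕ) [NeZero N] (ψ : DirichletCharacter ℂ N) :
    eis1MFun N ψ = (-(4 * π * I))⁻¹ • ((fSum N ψ) ∣[(1 : ℤ)] lvlR N) := by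
  funext τ
  rw [Pi.smul_apply, slash_lvlR, smul_eq_mul, eis1MFun]

/-- the nebentypus of `E₁^ψ`. -/
theorem eis1MFun_neb {N : ℕ} [NeZero N] (hN : 1 < N) (ψ : DirichletCharacter ℂ N)
    (γ : SL(2, ℤ)) (hγ : γ ∈ Gamma0 N) (τ : ℍ) :
    ((eis1MFun N ψ) ∣[(1 : ℤ)] γ) τ = ψ ((γ 1 1 : ℤ) : ZMod N) * eis1MFun N ψ τ := by
  have hd : denom (Matrix.SpecialLinearGroup.toGL
      ((Matrix.SpecialLinearGroup.map (Int.castRingHom ℝ)) γ)) (τ : ℂ) = jFac γ τ :=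
    denom_eq_jFac γ τ
  have hj := jFac_ne_zero γ τ
  rw [SL_slash_apply, eis1MFun, eis1MFun, fSum_lvl_smul hN ψ γ hγ, hd, zpow_neg, zpow_one]
  field_simp

theorem isArithmetic_conj_lvlR (N : ℕ) [NeZero N] :
    (ConjAct.toConjAct (lvlR N)⁻¹ •
      ((CongruenceSubgroup.Gamma N : Subgroup SL(2, ℤ)) : Subgroup (GL (Fin 2) ℝ))).IsArithmetic := by
  have h := Subgroup.IsArithmetic.conj
    ((CongruenceSubgroup.Gamma N : Subgroup SL(2, ℤ)) : Subgroup (GL (Fin 2) ℝ)) (lvlQ N)⁻¹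
  rw [map_inv] at h
  exact h

/-- **`E₁^ψ` as a modular form of weight one on `Γ₁(N)`.** -/
def eis1MF {N : ℕ} [NeZero N] (hN : 1 < N) (ψ : DirichletCharacter ℂ N) :
    ModularForm (Gamma1 N) 1 where
  toFun := eis1MFun N ψ
  slash_action_eq' := by
    intro g hg
    obtain ⟨γ, hγ, rfl⟩ := Subgroup.mem_map.mp hg
    have h0 : γ ∈ Gamma0 N := Gamma1_in_Gamma0 N hγ
    have h1 : (eis1MFun N ψ) ∣[(1 : ℤ)] γ = eis1MFun N ψ := by
      funext τ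
      rw [eis1MFun_neb hN ψ γ h0]
      have : ((γ 1 1 : ℤ) : ZMod N) = 1 := ((Gamma1_mem N γ).mp hγ).2.1
      rw [this, map_one, one_mul]
    rwa [SL_slash] at h1
  holo' := by
    have h := (ModularForm.translate (fSumMF hN ψ) (lvlR N)).holo'
    have h2 : MDifferentiable 𝓘(ℂ) 𝓘(ℂ) ((fSum N ψ) ∣[(1 : ℤ)] lvlR N) := h
    have h3 := h2.const_smul ((-(4 * π * I))⁻¹ : ℂ)
    rw [← eis1MFun_eq_smul_slash] at h3
    exact h3
  bdd_at_cusps' := by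
    intro c hc g hg
    have hc1 := (Subgroup.IsArithmetic.isCusp_iff_isCusp_SL2Z _).mp hc
    have := isArithmetic_conj_lvlR N
    have hc2 := (Subgroup.IsArithmetic.isCusp_iff_isCusp_SL2Z
      (ConjAct.toConjAct (lvlR N)⁻¹ •
        ((CongruenceSubgroup.Gamma N : Subgroup SL(2, ℤ)) : Subgroup (GL (Fin 2) ℝ)))).mpr hc1
    have hb := (ModularForm.translate (fSumMF hN ψ) (lvlR N)).bdd_at_cusps' hc2 g hg
    have hb2 : IsBoundedAtImInfty (((fSum N ψ) ∣[(1 : ℤ)] lvlR N) ∣[(1 : ℤ)] g) := hb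
    show IsBoundedAtImInfty ((eis1MFun N ψ) ∣[(1 : ℤ)] g)
    rw [eis1MFun_eq_smul_slash, smul_slash]
    exact hb2.const_smul_left _

theorem coe_eis1MF {N : ℕ} [NeZero N] (hN : 1 < N) (ψ : DirichletCharacter ℂ N) :
    (eis1MF hN ψ : ℍ → ℂ) = eis1MFun N ψ := rfl


/-! ### assembly -/

theorem one_lt_of_odd {N : ℕ} [NeZero N] {ψ : DirichletCharacter ℂ N} (hψ : ψ.Odd) : 1 < N := by
  rcases Nat.lt_or_ge 1 N with h | h
  · exact h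
  · exfalso
    have hN1 : N = 1 := le_antisymm h (Nat.pos_of_ne_zero (NeZero.ne N))
    subst hN1
    have h1 : ψ (-1) = -1 := hψ
    have h2 : (-1 : ZMod 1) = 1 := Subsingleton.elim _ _
    rw [h2, map_one] at h1
    norm_num at h1

theorem sum_units_eq {N : ℕ} [NeZero N] (ψ : DirichletCharacter ℂ N) (f : ZMod N → ℂ) :
    ∑ y : ZMod N, ψ y * f y = ∑ u : (ZMod N)ˣ, ψ u * f u := by
  classical
  rw [← Finset.sum_filter_add_sum_filter_not Finset.univ (fun y : ZMod N => IsUnit y)]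
  have h2 : ∑ y ∈ Finset.univ.filter (fun y : ZMod N => ¬ IsUnit y), ψ y * f y = 0 := by
    refine Finset.sum_eq_zero fun y hy => ?_
    rw [Finset.mem_filter] at hy
    rw [MulChar.map_nonunit ψ hy.2, zero_mul]
  rw [h2, add_zero]
  have h3 : Finset.univ.filter (fun y : ZMod N => IsUnit y)
      = Finset.univ.map ⟨fun u : (ZMod N)ˣ => (u : ZMod N), Units.val_injective⟩ := by
    ext y
    simp only [Finset.mem_filter, Finset.mem_univ, true_and, Finset.mem_map,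
      Function.Embedding.coeFn_mk]
    constructor
    · rintro ⟨u, rfl⟩
      exact ⟨u, rfl⟩
    · rintro ⟨u, rfl⟩
      exact u.isUnit
  rw [h3, Finset.sum_map]
  rfl

theorem eis1MFun_eq_eis1Fun {N : ℕ} [NeZero N] (ψ : DirichletCharacter ℂ N) (τ : ℍ) :
    eis1MFun N ψ τ = eis1Fun N ψ τ := by
  rw [eis1MFun, eis1Fun, fSum,
    sum_units_eq ψ (fun y : ZMod N => phiC N (y.val : ℤ) 0 ((N : ℂ) * τ))]
  congr 1
  refine Finset.sum_congr rfl fun u _ => ?_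
  rw [phiZ, phiFun, coe_lvlR_smul]

/-- **(P2)** from the `q`-expansion (seat QEXP). -/
theorem eis1Statement_of (hq : Eis1QExpStatement) : Eis1Statement := by
  intro N _ ψ hψ
  have hN := one_lt_of_odd hψ
  refine ⟨eis1MF hN ψ, fun γ hγ z => ?_, ?_, fun n hn => ?_⟩
  · exact eis1MFun_neb hN ψ γ hγ z
  · have h1 : (1 : ℝ) ∈ ((Gamma1 N : Subgroup (GL (Fin 2) ℝ))).strictPeriods := by
      rw [strictPeriods_Gamma1]
      exact AddSubgroup.mem_zmultiples 1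
    have hs : ∀ τ : ℍ, HasSum (fun m : ℕ => eis1Coeff N ψ m • Function.Periodic.qParam 1 τ ^ m)
        ((eis1MF hN ψ) τ) := by
      intro τ
      have := hq N ψ hψ τ
      rw [← eis1MFun_eq_eis1Fun] at this
      exact this
    have := ModularFormClass.qExpansion_coeff_unique one_pos h1 hs 0
    rw [← this, eis1Coeff, if_pos rfl]
  · have h1 : (1 : ℝ) ∈ ((Gamma1 N : Subgroup (GL (Fin 2) ℝ))).strictPeriods := by
      rw [strictPeriods_Gamma1]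
      exact AddSubgroup.mem_zmultiples 1
    have hs : ∀ τ : ℍ, HasSum (fun m : ℕ => eis1Coeff N ψ m • Function.Periodic.qParam 1 τ ^ m)
        ((eis1MF hN ψ) τ) := by
      intro τ
      have := hq N ψ hψ τ
      rw [← eis1MFun_eq_eis1Fun] at this
      exact this
    have := ModularFormClass.qExpansion_coeff_unique one_pos h1 hs n
    rw [← this, eis1Coeff, if_neg hn.ne']

end Fermat.Agent.S48.Eis1
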