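import Mathlib
import Fermat.Agent.S48.Eis1.Def
import Fermat.Agent.S48.Eis1.QExp.Lambert

set_option autoImplicit false

/-!
# S48 (P2), seat QEXP (helper7): the `q`-expansion of `E₁^ψ`

`theorem eis1QExp : Eis1QExpStatement`.

For `0 < r < N`, `q = e(τ)`, `S(r) = ∑_{n ≥ 0} g(q^{r + N n})`:
`φ_{(r,0)}(Nτ) = -πi + 2πi r/N - 2πi S(r) + 2πi S(N - r)`   (`e1q_phiC`).
Sum against the odd character `ψ` (`∑ ψ = 0`, `y ↦ -y`), residue classes
(`Nat.sumByResidueClasses`), and the Lambert series (`lam_hasSum`).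
-/

noncomputable section

open Complex Real
open UpperHalfPlane hiding I

namespace Fermat.Agent.S48.Eis1

theorem e1q_qParam (τ : ℍ) : Function.Periodic.qParam 1 (τ : ℂ) = eExp τ := by
  simp [Function.Periodic.qParam, eExp]

/-- `S(r) = ∑_n g(q^{r + N n})`. -/
def e1qS (N : ℕ) (q : ℂ) (r : ℕ) : ℂ := ∑' n : ℕ, gFun (q ^ (r + N * n))

theorem e1q_eExp_pow (τ : ℂ) (N r n : ℕ) :
    eExp ((r : ℂ) * τ + (n : ℂ) * ((N : ℂ) * τ)) = eExp τ ^ (r + N * n) := by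
  rw [← eExp_nat_mul]
  congr 1
  push_cast
  ring

theorem e1q_im_pos (N : ℕ) [NeZero N] {τ : ℂ} (hτ : 0 < τ.im) : 0 < ((N : ℂ) * τ).im := by
  have hN : (0 : ℝ) < N := Nat.cast_pos.mpr (Nat.pos_of_ne_zero (NeZero.ne N))
  simp only [Complex.mul_im, Complex.natCast_re, Complex.natCast_im, zero_mul, add_zero]
  positivity

theorem e1q_summable (N : ℕ) [NeZero N] {τ : ℂ} (hτ : 0 < τ.im) (r : ℕ) :
    Summable fun n : ℕ => gFun (eExp τ ^ (r + N * n)) := by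
  have h := summable_gFun_eExp ((r : ℂ) * τ) (e1q_im_pos N hτ)
  refine h.congr fun n => ?_
  rw [e1q_eExp_pow]

theorem e1q_pow_ne_one {τ : ℂ} (hτ : 0 < τ.im) {r : ℕ} (hr : 0 < r) : eExp τ ^ r ≠ 1 := by
  intro h
  have h1 : ‖eExp τ ^ r‖ < 1 := by
    rw [norm_pow]
    exact pow_lt_one₀ (norm_nonneg _) (norm_eExp_lt_one hτ) hr.ne'
  rw [h, norm_one] at h1
  exact lt_irrefl _ h1

/-- **Step A**: `φ_{(r,0)}(Nτ)` for `0 < r < N`. -/
theorem e1q_phiC {N : ℕ} [NeZero N] {τ : ℂ} (hτ : 0 < τ.im) {r : ℕ} (hr0 : 0 < r) (hrN : r < N) :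
    phiC N (r : ℤ) 0 ((N : ℂ) * τ) =
      -(π * I) + 2 * π * I * r / N - 2 * π * I * e1qS N (eExp τ) r
        + 2 * π * I * e1qS N (eExp τ) (N - r) := by
  have hN : (N : ℂ) ≠ 0 := Nat.cast_ne_zero.mpr (NeZero.ne N)
  have hz : zPt N (r : ℤ) 0 ((N : ℂ) * τ) = (r : ℂ) * τ := by
    rw [zPt]
    push_cast
    field_simp
    ring
  have he : eExp ((r : ℂ) * τ) ≠ 1 := by
    rw [eExp_nat_mul]
    exact e1q_pow_ne_one hτ hr0
  -- the two series
  have e1 : ∀ n : ℕ, eExp (-((r : ℂ) * τ) + ((n + 1 : ℕ) : ℂ) * ((N : ℂ) * τ))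
      = eExp τ ^ ((N - r) + N * n) := by
    intro n
    rw [← eExp_nat_mul]
    congr 1
    have hc : ((N - r + N * n : ℕ) : ℂ) = (N : ℂ) - r + N * n := by
      rw [Nat.cast_add, Nat.cast_sub hrN.le]
      push_cast
      ring
    rw [hc]
    push_cast
    ring
  have e2 : ∀ n : ℕ, eExp ((r : ℂ) * τ + ((n + 1 : ℕ) : ℂ) * ((N : ℂ) * τ))
      = eExp τ ^ (r + N * (n + 1)) := by
    intro n
    rw [← eExp_nat_mul]
    congr 1
    push_cast
    ring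
  have hs1 := e1q_summable N hτ (N - r)
  have hs2 := e1q_summable N hτ r
  have hs2' : Summable fun n : ℕ => gFun (eExp τ ^ (r + N * (n + 1))) :=
    (summable_nat_add_iff 1).mpr hs2
  have hsum : ∑' n : ℕ, zTerm ((r : ℂ) * τ) ((N : ℂ) * τ) n
      = e1qS N (eExp τ) (N - r) - (e1qS N (eExp τ) r - gFun (eExp τ ^ r)) := by
    have e3 : (fun n : ℕ => zTerm ((r : ℂ) * τ) ((N : ℂ) * τ) n)
        = fun n : ℕ => gFun (eExp τ ^ ((N - r) + N * n)) - gFun (eExp τ ^ (r + N * (n + 1))) := by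
      funext n
      rw [zTerm, e1, e2]
    rw [e3, hs1.tsum_sub hs2']
    have e4 : e1qS N (eExp τ) r
        = gFun (eExp τ ^ r) + ∑' n : ℕ, gFun (eExp τ ^ (r + N * (n + 1))) := by
      rw [e1qS, hs2.tsum_eq_zero_add]
      simp
    rw [e4, e1qS]
    ring
  rw [phiC, hz, zFun, eis1_pi_cot_eq he, hsum, eExp_nat_mul]
  push_cast
  ring

variable {N : ℕ} [NeZero N] (ψ : DirichletCharacter ℂ N)

theorem e1q_one_lt (hψ : ψ.Odd) : 1 < N := by
  rcases Nat.lt_or_ge 1 N with h | h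
  · exact h
  · exfalso
    have hN1 : N = 1 := le_antisymm h (Nat.pos_of_ne_zero (NeZero.ne N))
    subst hN1
    have h1 : (-1 : ZMod 1) = 1 := Subsingleton.elim _ _
    have h2 : ψ (-1) = 1 := by rw [h1, map_one]
    rw [hψ] at h2
    norm_num at h2

theorem e1q_map_zero (hψ : ψ.Odd) : ψ 0 = 0 := by
  haveI : Fact (1 < N) := ⟨e1q_one_lt ψ hψ⟩
  exact MulChar.map_zero ψ

theorem e1q_ne_one (hψ : ψ.Odd) : ψ ≠ 1 := by
  rintro rfl
  have h : (1 : DirichletCharacter ℂ N) (-1) = 1 :=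
    MulChar.one_apply (isUnit_one.neg)
  rw [DirichletCharacter.Odd, h] at hψ
  norm_num at hψ

theorem e1q_sum_eq_zero (hψ : ψ.Odd) : ∑ y : ZMod N, ψ y = 0 :=
  MulChar.sum_eq_zero_of_ne_one (e1q_ne_one ψ hψ)

/-- the reflection `y ↦ -y`. -/
theorem e1q_sum_neg (hψ : ψ.Odd) (S : ℕ → ℂ) :
    ∑ y : ZMod N, ψ y * S (N - y.val) = -∑ y : ZMod N, ψ y * S y.val := by
  rw [← Finset.sum_neg_distrib]
  refine Fintype.sum_equiv (Equiv.neg (ZMod N)) _ _ fun y => ?_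
  simp only [Equiv.neg_apply]
  by_cases hy : y = 0
  · subst hy
    simp [e1q_map_zero ψ hψ]
  · rw [hψ.eval_neg, ZMod.neg_val, if_neg hy]
    ring

/-- **Step B**: the sum against `ψ`. -/
theorem e1q_sum_phiC (hψ : ψ.Odd) {τ : ℂ} (hτ : 0 < τ.im) :
    ∑ y : ZMod N, ψ y * phiC N (y.val : ℤ) 0 ((N : ℂ) * τ)
      = 2 * π * I / N * ∑ y : ZMod N, (y.val : ℂ) * ψ y
        - 4 * π * I * ∑ y : ZMod N, ψ y * e1qS N (eExp τ) y.val := by
  have h1 : ∀ y : ZMod N, ψ y * phiC N (y.val : ℤ) 0 ((N : ℂ) * τ)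
      = -(π * I) * ψ y + 2 * π * I / N * ((y.val : ℂ) * ψ y)
        - 2 * π * I * (ψ y * e1qS N (eExp τ) y.val)
        + 2 * π * I * (ψ y * e1qS N (eExp τ) (N - y.val)) := by
    intro y
    by_cases hy : y = 0
    · subst hy
      simp [e1q_map_zero ψ hψ]
    · have hv0 : 0 < y.val := Nat.pos_of_ne_zero (fun h => hy ((ZMod.val_eq_zero y).mp h))
      rw [show ((y.val : ℕ) : ℤ) = ((y.val : ℕ) : ℤ) from rfl, e1q_phiC hτ hv0 (ZMod.val_lt y)]
      ring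
  rw [Finset.sum_congr rfl fun y _ => h1 y]
  rw [Finset.sum_add_distrib, Finset.sum_sub_distrib, Finset.sum_add_distrib,
    ← Finset.mul_sum, ← Finset.mul_sum, ← Finset.mul_sum, ← Finset.mul_sum,
    e1q_sum_eq_zero ψ hψ, e1q_sum_neg ψ hψ]
  ring

/-- the norm of `g(qⁿ)`-terms is summable against a bounded sequence. -/
theorem e1q_summable_nat (hq : ∀ m : ZMod N, ‖ψ m‖ ≤ 1) {τ : ℂ} (hτ : 0 < τ.im) :
    Summable fun n : ℕ => ψ (n : ZMod N) * gFun (eExp τ ^ n) := by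
  have h := lam_summable (fun m => ψ (m : ZMod N)) (fun m => hq _) (norm_eExp_lt_one hτ)
  have h2 : Summable fun n : ℕ => ψ ((n + 1 : ℕ) : ZMod N) * gFun (eExp τ ^ (n + 1)) := by
    have := (summable_pnat_iff_summable_succ
      (f := fun n : ℕ => ψ (n : ZMod N) * gFun (eExp τ ^ n))).mp
    apply this
    refine h.congr fun d => ?_
    rw [gFun]
  exact (summable_nat_add_iff 1).mp h2

/-- **Step C**: residue classes. -/
theorem e1q_sum_S (hψ : ψ.Odd) {τ : ℂ} (hτ : 0 < τ.im) :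
    ∑ y : ZMod N, ψ y * e1qS N (eExp τ) y.val
      = ∑' d : ℕ+, ψ ((d : ℕ) : ZMod N) * (eExp τ ^ (d : ℕ) / (1 - eExp τ ^ (d : ℕ))) := by
  have hs := e1q_summable_nat ψ (fun m => DirichletCharacter.norm_le_one ψ m) hτ
  have h1 := Nat.sumByResidueClasses hs N
  have h2 : ∀ y : ZMod N, ∑' m : ℕ, ψ ((y.val + N * m : ℕ) : ZMod N)
        * gFun (eExp τ ^ (y.val + N * m)) = ψ y * e1qS N (eExp τ) y.val := by
    intro y
    rw [e1qS, ← tsum_mul_left]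
    refine tsum_congr fun m => ?_
    congr 2
    rw [Nat.cast_add, Nat.cast_mul, ZMod.natCast_self, zero_mul, add_zero, ZMod.natCast_zmod_val]
  rw [Finset.sum_congr rfl fun y _ => h2 y] at h1
  rw [← h1, hs.tsum_eq_zero_add]
  have h0 : ψ ((0 : ℕ) : ZMod N) = 0 := by
    rw [Nat.cast_zero]
    exact e1q_map_zero ψ hψ
  rw [h0, zero_mul, zero_add]
  rw [← tsum_pnat_eq_tsum_succ (f := fun n : ℕ => ψ (n : ZMod N) * gFun (eExp τ ^ n))]
  refine tsum_congr fun d => ?_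
  rw [gFun]

theorem e1q_sum_range (F : ℕ → ZMod N → ℂ) :
    ∑ y : ZMod N, F y.val y = ∑ a ∈ Finset.range N, F a (a : ZMod N) := by
  obtain ⟨n, rfl⟩ := Nat.exists_eq_succ_of_ne_zero (NeZero.ne N)
  rw [Finset.sum_range]
  refine Fintype.sum_equiv (Equiv.refl _) _ _ fun y => ?_
  have h := ZMod.natCast_zmod_val y
  simp only [Equiv.refl_apply]
  congr 1
  exact h.symm

/-- **the `q`-expansion of `E₁^ψ`.** -/
theorem eis1QExp : Eis1QExpStatement := by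
  intro N _ ψ hψ τ
  have hτ : 0 < (τ : ℂ).im := τ.im_pos
  have hq : ‖eExp (τ : ℂ)‖ < 1 := norm_eExp_lt_one hτ
  have hN : (N : ℂ) ≠ 0 := Nat.cast_ne_zero.mpr (NeZero.ne N)
  have hL := lam_hasSum (fun m => ψ (m : ZMod N)) (fun m => DirichletCharacter.norm_le_one ψ _) hq
  set L : ℂ := ∑' d : ℕ+, ψ ((d : ℕ) : ZMod N)
    * (eExp (τ : ℂ) ^ (d : ℕ) / (1 - eExp (τ : ℂ) ^ (d : ℕ))) with hLdef
  rw [e1q_qParam]
  have hval : eis1Fun N ψ τ = L + eis1Coeff N ψ 0 • eExp (τ : ℂ) ^ 0 := by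
    have hB := e1q_sum_phiC ψ hψ hτ
    have hC := e1q_sum_S ψ hψ hτ
    rw [hC, ← hLdef] at hB
    have hR : ∑ y : ZMod N, (y.val : ℂ) * ψ y
        = ∑ a ∈ Finset.range N, (a : ℂ) * ψ (a : ZMod N) :=
      e1q_sum_range (N := N) (fun a y => (a : ℂ) * ψ y)
    rw [eis1Fun, hB, hR, eis1Coeff, if_pos rfl, pow_zero, smul_eq_mul, mul_one]
    have hpi : (π : ℂ) ≠ 0 := by exact_mod_cast Real.pi_ne_zero
    have hI : (I : ℂ) ≠ 0 := Complex.I_ne_zero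
    field_simp
    ring
  rw [hval]
  refine (hasSum_pnat_iff (f := fun n : ℕ => eis1Coeff N ψ n • eExp (τ : ℂ) ^ n)).mp ?_
  have e : (fun x : ℕ+ => eis1Coeff N ψ (x : ℕ) • eExp (τ : ℂ) ^ (x : ℕ))
      = fun n : ℕ+ => (∑ d ∈ (n : ℕ).divisors, ψ (d : ZMod N)) * eExp (τ : ℂ) ^ (n : ℕ) := by
    funext x
    rw [eis1Coeff, if_neg x.ne_zero, smul_eq_mul]
  rw [e]
  exact hL

end Fermat.Agent.S48.Eis1
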