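import Mathlib
import Fermat.Agent.S48.Eis1.Main
import Fermat.Agent.S48.Eis1.QExp

set_option autoImplicit false

/-!
# S48 (P2): the weight-one Eisenstein series `E₁^ψ` — final statement  (helper33, QEXP: helper7)

`eis1Statement : Eis1Statement`: for every odd Dirichlet character `ψ` mod `N` there is a modular
form of weight one on `Γ₁(N)` with nebentypus `ψ` and `q`-expansion
`-(1/(2N)) ∑_{a<N} a ψ(a) + ∑_{n ≥ 1} (∑_{d ∣ n} ψ(d)) qⁿ`.
-/

namespace Fermat.Agent.S48.Eis1

/-- **(P2)** the weight-one Eisenstein series. -/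
theorem eis1Statement : Eis1Statement := eis1Statement_of eis1QExp

end Fermat.Agent.S48.Eis1
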